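import Fermat.Agent.Row24.Curve.Opens
import Fermat.Agent.Row27.Separating

/-!
# Affine open subsets of a smooth proper curve

The complement of a finite nonempty set of closed points is affine, and the global sections of the
curve are the constants.
-/

set_option autoImplicit false

universe u

noncomputable section

open CategoryTheory AlgebraicGeometry TopologicalSpace Opposite AlgebraicCurve
open Fermat.Agent.FunctionFieldRR

namespace Fermat.Agent.Row24.Curve

section RR

variable (K F : Type*) [Field K] [Field F] [Algebra K F] [IsAlgClosed K] [IsFunctionField K F]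

/-- In large degree every place is not a base point. -/
theorem exists_ord_eq_neg_of_large : ∃ N : ℤ, ∀ D : Divisor K F, N ≤ Divisor.degree D →
    ∀ P : Place K F, ∃ f : F, f ≠ 0 ∧ f ∈ riemannRochSpace D ∧ P.ord f = -D P := by
  classical
  obtain ⟨x, hx, hfin, hsep⟩ := Row27.exists_separating_element K F
  refine ⟨2 * (genusOf hx : ℤ), fun D hD P => ?_⟩
  have hdeg : Divisor.degree (D - Finsupp.single P 1) = Divisor.degree D - 1 := by
    simp [map_sub, deg_eq_one P]
  have h1 := finrank_eq_of_degree_gt hx (D := D) (by omega)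
  have h2 := finrank_eq_of_degree_gt hx (D := D - Finsupp.single P 1) (by omega)
  have hne : ¬ riemannRochSpace D ≤ riemannRochSpace (D - Finsupp.single P 1) := by
    intro hle
    have hge : riemannRochSpace (D - Finsupp.single P 1) ≤ riemannRochSpace D := fun f hf => by
      rw [mem_riemannRochSpace_iff] at hf ⊢
      intro v
      refine (hf v).imp_right fun h => ?_
      rw [Finsupp.sub_apply] at h
      have : (0 : ℤ) ≤ Finsupp.single P 1 v := by
        rw [Finsupp.single_apply]; split <;> norm_num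
      omega
    rw [le_antisymm hle hge] at h1
    omega
  obtain ⟨f, hf, hf'⟩ := SetLike.not_le_iff_exists.1 hne
  have hf0 : f ≠ 0 := fun h => hf' (h ▸ Submodule.zero_mem _)
  refine ⟨f, hf0, hf, le_antisymm ?_ (((mem_riemannRochSpace_iff).1 hf P).resolve_left hf0)⟩
  by_contra hlt
  refine hf' (mem_riemannRochSpace_iff.2 fun v => Or.inr ?_)
  have hv := (mem_riemannRochSpace_iff.1 hf v).resolve_left hf0
  rw [Finsupp.sub_apply, Finsupp.single_apply]
  split
  · subst_vars; omega
  · omega

/-- A function with poles inside `S`, zeros on `T`, with a pole at a chosen point of `S`, or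
neither zero nor pole at a chosen point outside. -/
theorem exists_fun (S T : Finset (Place K F)) (hS : S.Nonempty) (hST : Disjoint S T)
    (P : Place K F) (hP : P ∉ T) :
    ∃ f : F, f ≠ 0 ∧ (∀ v ∉ S, 0 ≤ v.ord f) ∧ (∀ v ∈ T, 0 < v.ord f) ∧
      (P ∈ S → P.ord f < 0) ∧ (P ∉ S → P.ord f = 0) := by
  classical
  obtain ⟨N, hN⟩ := exists_ord_eq_neg_of_large K F
  set n : ℤ := max N 0 + T.card + 1 with hn
  let D : Divisor K F := n • (∑ v ∈ S, Finsupp.single v (1 : ℤ)) - ∑ v ∈ T, Finsupp.single v 1
  have hD : ∀ v, D v = (if v ∈ S then n else 0) - (if v ∈ T then 1 else 0) := fun v => by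
    simp [D, Finsupp.single_apply]
  have hdeg : N ≤ Divisor.degree D := by
    have hc : (1 : ℤ) ≤ S.card := by exact_mod_cast hS.card_pos
    have : Divisor.degree D = n * S.card - T.card := by
      simp [D, map_sub, map_sum, map_zsmul, deg_eq_one]
    rw [this]
    nlinarith [le_max_left N 0, le_max_right N 0]
  obtain ⟨f, hf0, hf, hfP⟩ := hN D hdeg P
  have hfv : ∀ v, -D v ≤ v.ord f := fun v =>
    ((mem_riemannRochSpace_iff).1 hf v).resolve_left hf0
  refine ⟨f, hf0, fun v hv => ?_, fun v hv => ?_, fun hPS => ?_, fun hPS => ?_⟩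
  · have h := hfv v
    rw [hD, if_neg hv] at h
    split at h <;> omega
  · have h := hfv v
    rw [hD, if_neg (Finset.disjoint_right.1 hST hv), if_pos hv] at h
    omega
  · rw [hfP, hD, if_pos hPS, if_neg hP]
    have := le_max_right N 0
    omega
  · rw [hfP, hD, if_neg hPS, if_neg hP]
    rfl

end RR

variable {k : Type u} [Field k] [IsAlgClosed k] {C : Scheme.{u}}
  (c : C ⟶ Spec (CommRingCat.of k)) [IsIntegral C] [SmoothOfRelativeDimension 1 c] [IsProper c]

omit [IsProper c] in
/-- A function with poles inside `S`, regular elsewhere, is a section over the complement. -/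
theorem exists_section_complOpen (S : Finset (CPoint C)) {f : FF c}
    (hf : ∀ v : CPoint C, v ∉ S → 0 ≤ (pointPlace c v).ord f) :
    ∃ a : Γ(C, complOpen c S), toFF c (complOpen c S) a = f :=
  exists_toFF_eq c _ f fun v hv => (ord_nonneg_iff _ _).1 (hf v ((mem_complOpen c).1 hv))

/-- Sections with prescribed behaviour on the complement of a finite nonempty set. -/
theorem exists_section (S T : Finset (CPoint C)) (hS : S.Nonempty) (hST : Disjoint S T)
    (x : CPoint C) (hx : x ∉ T) :
    ∃ a : Γ(C, complOpen c S), toFF c _ a ≠ 0 ∧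
      (∀ v ∈ T, 0 < (pointPlace c v).ord (toFF c _ a)) ∧
      (x ∈ S → (pointPlace c x).ord (toFF c _ a) < 0) ∧
      (x ∉ S → (pointPlace c x).ord (toFF c _ a) = 0) := by
  classical
  have hinj := pointPlace_injective c
  obtain ⟨f, hf0, h1, h2, h3, h4⟩ := exists_fun k (FF c) (S.image (pointPlace c))
    (T.image (pointPlace c)) (hS.image _) ((Finset.disjoint_image hinj).2 hST) (pointPlace c x)
    (by rwa [hinj.mem_finset_image])
  obtain ⟨a, ha⟩ := exists_section_complOpen c S (f := f) fun v hv =>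
    h1 _ (by rwa [hinj.mem_finset_image])
  refine ⟨a, ha ▸ hf0, fun v hv => ha ▸ h2 _ (Finset.mem_image_of_mem _ hv),
    fun h => ha ▸ h3 (Finset.mem_image_of_mem _ h), fun h => ha ▸ h4 (by rwa [hinj.mem_finset_image])⟩

/-- The complement of a finite nonempty set of closed points is affine. -/
theorem isAffineOpen_complOpen (S : Finset (CPoint C)) (hS : S.Nonempty) :
    IsAffineOpen (complOpen c S) := by
  classical
  set U := complOpen c S
  let s : Set Γ(C, U) := {a | ∃ V : C.Opens, IsAffineOpen V ∧ C.basicOpen a ≤ V ∧ V ≤ U}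
  refine isAffineOpen_of_isAffineOpen_basicOpen U s ?_ ?_
  · by_contra hne
    -- a section vanishing outside a smaller affine open set lies in `s`
    have hmk : ∀ (V : C.Opens), IsAffineOpen V → V ≤ U → Nonempty V →
        ∃ T : Finset (CPoint C), Disjoint S T ∧
          (∀ x : CPoint C, (x : C) ∈ V → x ∉ T) ∧
          ∀ a : Γ(C, U), (∀ v ∈ T, 0 < (pointPlace c v).ord (toFF c U a)) → a ∈ s := by
      intro V hVaff hVU hne'
      obtain ⟨S', hS'⟩ := exists_eq_complOpen c V
      refine ⟨S' \ S, Finset.disjoint_sdiff, fun x hxV h =>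
        (mem_complOpen c).1 (hS' ▸ hxV) (Finset.mem_sdiff.1 h).1, fun a hT => ?_⟩
      refine ⟨V, hVaff, fun y hy => ?_, hVU⟩
      by_cases hyη : y = genericPoint C
      · exact hyη ▸ genericPoint_mem
      · have hyU : y ∈ U := C.basicOpen_le a hy
        have hord := ((mem_basicOpen_iff c (x := ⟨y, hyη⟩) hyU).1 hy).2
        show ((⟨y, hyη⟩ : CPoint C) : C) ∈ V
        rw [hS', mem_complOpen]
        intro hy'
        exact (hT ⟨y, hyη⟩ (Finset.mem_sdiff.2 ⟨hy', (mem_complOpen c).1 hyU⟩)).ne'
          hord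
    let π : Γ(C, U) →+* (toFF c U).range := (toFF c U).rangeRestrict
    have hπ : Function.Bijective π :=
      ⟨fun a b h => toFF_injective c U (congrArg Subtype.val h), RingHom.rangeRestrict_surjective _⟩
    have hI : (Ideal.span s).map π ≠ ⊤ := fun h => hne (by
      rw [← Ideal.comap_map_of_bijective π hπ (I := Ideal.span s), h, Ideal.comap_top])
    obtain ⟨O, hAO, hIO⟩ := Ideal.image_subset_nonunits_valuationSubring _ hI
    have hK : ∀ a : k, algebraMap k (FF c) a ∈ O := fun a =>
      hAO ⟨constHom c U a, toFF_constHom c U a⟩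
    have hnu : ∀ a ∈ s, toFF c U a ≠ 0 → (toFF c U a)⁻¹ ∉ O := fun a ha h0 hinv => by
      have hlt := (O.mem_nonunits_iff).1 (hIO ⟨π a,
        Ideal.mem_map_of_mem π (Ideal.subset_span ha), rfl⟩)
      have h1 := (O.valuation_le_one_iff _).2 hinv
      replace hlt : O.valuation (toFF c U a) < 1 := hlt
      rw [map_inv₀, inv_le_one₀ (zero_lt_iff.2 ((Valuation.ne_zero_iff _).2 h0))] at h1
      exact hlt.not_ge h1
    obtain ⟨x₀, hx₀⟩ := hS
    have htop : O ≠ ⊤ := by
      intro h
      obtain ⟨V, ⟨V, hV, rfl⟩, hηV, hVU⟩ := C.isBasis_affineOpens.exists_subset_of_mem_open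
        (genericPoint_mem (U := U) : genericPoint C ∈ (U : Set C)) U.isOpen
      obtain ⟨T, hST, -, hTs⟩ := hmk V hV hVU ⟨⟨_, hηV⟩⟩
      obtain ⟨a, ha0, hT, -, -⟩ := exists_section c S T ⟨x₀, hx₀⟩ hST x₀
        (Finset.disjoint_left.1 hST hx₀)
      exact hnu a (hTs a hT) ha0 (h ▸ ValuationSubring.mem_top _)
    obtain ⟨x, hx⟩ := exists_pointPlace_eq c (placeOfValuationSubring O hK htop)
    have hxO : ∀ f, f ∈ (pointPlace c x).toValuationSubring ↔ f ∈ O := fun f => by rw [hx]; rfl
    by_cases hxS : x ∈ S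
    · obtain ⟨a, -, -, hpole, -⟩ := exists_section c S ∅ ⟨x₀, hx₀⟩ (Finset.disjoint_empty_right S)
        x (Finset.notMem_empty _)
      exact ((ord_nonneg_iff _ _).2 ((hxO _).2 (hAO ⟨a, rfl⟩))).not_gt (hpole hxS)
    · obtain ⟨V, ⟨V, hV, rfl⟩, hxV, hVU⟩ := C.isBasis_affineOpens.exists_subset_of_mem_open
        ((mem_complOpen c).2 hxS : (x : C) ∈ (U : Set C)) U.isOpen
      obtain ⟨T, hST, hxT, hTs⟩ := hmk V hV hVU ⟨⟨_, hxV⟩⟩
      obtain ⟨a, ha0, hT, -, hord'⟩ := exists_section c S T ⟨x₀, hx₀⟩ hST x (hxT x hxV)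
      have ha := hTs a hT
      have hord := hord' hxS
      refine hnu a ha ha0 ((hxO _).1 ((ord_nonneg_iff _ _).1 ?_))
      rw [Place.ord_inv, hord, neg_zero]
  · rintro a ⟨V, hV, haV, hVU⟩
    have : C.basicOpen a = C.basicOpen (C.presheaf.map (homOfLE hVU).op a) := by
      rw [Scheme.basicOpen_res]
      exact (inf_eq_right.2 haV).symm
    rw [this]
    exact hV.basicOpen _

end Fermat.Agent.Row24.Curve
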