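import Fermat.Agent.Row24.Curve.Local
import Fermat.Agent.FunctionFieldRR.PlaceExists

/-!
# The function field of a smooth curve over an algebraically closed field

For `c : C ⟶ Spec k` smooth of relative dimension one with `C` integral: the constants in the
section rings, the function field `FF c` as a `k`-algebra, the closed points, the local rings at
closed points, and the fact that `FF c` is a function field of one variable.
-/

set_option autoImplicit false

universe u

noncomputable section

open CategoryTheory AlgebraicGeometry TopologicalSpace Opposite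
open Fermat.Agent.FunctionFieldRR

namespace Fermat.Agent.Row24.Curve

variable {k : Type u} [Field k] {C : Scheme.{u}} (c : C ⟶ Spec (CommRingCat.of k))

/-- The constants in the ring of sections over `U`. -/
def constHom (U : C.Opens) : k →+* Γ(C, U) :=
  ((Scheme.ΓSpecIso (CommRingCat.of k)).inv ≫ c.appLE ⊤ U le_top).hom

theorem map_constHom {U V : C.Opens} (h : U ≤ V) (a : k) :
    C.presheaf.map (homOfLE h).op (constHom c V a) = constHom c U a := by
  rw [constHom, constHom, ← c.appLE_map (le_top : V ≤ c ⁻¹ᵁ ⊤) (homOfLE h).op]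
  rfl

section FunctionField

variable [IsIntegral C]

/-- The function field of `C`, as a `k`-algebra through `c`. -/
@[nolint unusedArguments]
def FF {k : Type u} [Field k] {C : Scheme.{u}} [IsIntegral C]
    (_c : C ⟶ Spec (CommRingCat.of k)) : Type u :=
  C.functionField

instance : Field (FF c) := inferInstanceAs (Field C.functionField)

/-- A section over a nonempty open set as a rational function. -/
def toFF (U : C.Opens) [Nonempty U] : Γ(C, U) →+* FF c :=
  (C.germToFunctionField U).hom

instance instNonemptyTop : Nonempty (⊤ : C.Opens) := ⟨⟨genericPoint C, trivial⟩⟩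

instance instAlgebraFF : Algebra k (FF c) := ((toFF c ⊤).comp (constHom c ⊤)).toAlgebra

theorem toFF_injective (U : C.Opens) [Nonempty U] : Function.Injective (toFF c U) :=
  C.germToFunctionField_injective U

theorem toFF_map {U V : C.Opens} [Nonempty U] [Nonempty V] (h : U ≤ V) (a : Γ(C, V)) :
    toFF c U (C.presheaf.map (homOfLE h).op a) = toFF c V a :=
  C.presheaf.germ_res_apply (homOfLE h) _ _ a

theorem toFF_constHom (U : C.Opens) [Nonempty U] (a : k) :
    toFF c U (constHom c U a) = algebraMap k (FF c) a := by
  rw [← map_constHom c (le_top : U ≤ ⊤) a, toFF_map c le_top]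
  rfl

end FunctionField

section Chart

variable [SmoothOfRelativeDimension 1 c]

theorem exists_chart (x : C) :
    ∃ V : C.Opens, IsAffineOpen V ∧ x ∈ V ∧
      (letI := (constHom c V).toAlgebra
       Algebra.IsStandardSmoothOfRelativeDimension 1 k Γ(C, V)) := by
  obtain ⟨U, hU, V, hV, hx, e, hf⟩ :=
    SmoothOfRelativeDimension.exists_isStandardSmoothOfRelativeDimension (n := 1) (f := c) x
  have : U = ⊤ := by
    refine top_unique fun y _ => ?_
    have hs : Subsingleton (PrimeSpectrum k) := inferInstance
    exact (Subsingleton.elim (α := PrimeSpectrum k) (c x) y) ▸ e hx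
  subst this
  refine ⟨V, hV, hx, ?_⟩
  have := RingHom.isStandardSmoothOfRelativeDimension_respectsIso (n := 1)
  exact this.2 _ (Scheme.ΓSpecIso (CommRingCat.of k)).symm.commRingCatIsoToRingEquiv hf

theorem finiteType_constHom {V : C.Opens} (hV : IsAffineOpen V) :
    (constHom c V).FiniteType := by
  have : LocallyOfFiniteType c := by
    have := SmoothOfRelativeDimension.smooth 1 c
    infer_instance
  have h := c.finiteType_appLE (isAffineOpen_top _) hV le_top
  exact h.comp (RingHom.FiniteType.of_surjective _
    (Scheme.ΓSpecIso (CommRingCat.of k)).symm.commRingCatIsoToRingEquiv.surjective)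

end Chart

section Points

variable [IsAlgClosed k] [IsIntegral C] [SmoothOfRelativeDimension 1 c]

include c

omit [Field k] [IsAlgClosed k] [SmoothOfRelativeDimension 1 c] c in
theorem primeIdealOf_eq_bot_iff {V : C.Opens} (hV : IsAffineOpen V) (x : V) :
    (hV.primeIdealOf x).asIdeal = ⊥ ↔ (x : C) = genericPoint C := by
  have : Nonempty V := ⟨x⟩
  have hη : genericPoint C ∈ V := (genericPoint_spec C).mem_open_set_iff V.isOpen |>.2
    (by simpa using ‹Nonempty V›)
  have h0 : (hV.primeIdealOf ⟨genericPoint C, hη⟩).asIdeal = ⊥ := by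
    rw [hV.primeIdealOf_genericPoint, genericPoint_eq_bot_of_affine]
    rfl
  constructor
  · intro h
    have heq : hV.primeIdealOf x = hV.primeIdealOf ⟨genericPoint C, hη⟩ :=
      PrimeSpectrum.ext (h.trans h0.symm)
    exact (hV.fromSpec_primeIdealOf x).symm.trans
      ((congrArg hV.fromSpec heq).trans (hV.fromSpec_primeIdealOf ⟨genericPoint C, hη⟩))
  · intro h
    rwa [Subtype.ext h (a1 := x) (a2 := ⟨genericPoint C, hη⟩)]

theorem eq_of_specializes {x y : C} (hx : x ≠ genericPoint C) (h : x ⤳ y) : x = y := by
  obtain ⟨V, hV, hy, hsm⟩ := exists_chart c y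
  have hxV : x ∈ V := h.mem_open V.isOpen hy
  have : Nonempty V := ⟨⟨y, hy⟩⟩
  let _ := (constHom c V).toAlgebra
  have : Algebra.FiniteType k Γ(C, V) := finiteType_constHom c hV
  have := hsm
  have hne : (hV.primeIdealOf ⟨x, hxV⟩).asIdeal ≠ ⊥ :=
    mt (primeIdealOf_eq_bot_iff hV _).1 hx
  have hmax := isMaximal_of_ne_bot k Γ(C, V) _ hne
  have hle : hV.primeIdealOf ⟨x, hxV⟩ ⤳ hV.primeIdealOf ⟨y, hy⟩ :=
    ((subtype_specializes_iff _ _).2 h : (⟨x, hxV⟩ : V) ⤳ ⟨y, hy⟩).map hV.isoSpec.hom.continuous
  have heq := PrimeSpectrum.ext (hmax.eq_of_le (hV.primeIdealOf ⟨y, hy⟩).isPrime.ne_top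
    ((PrimeSpectrum.le_iff_specializes _ _).2 hle))
  exact (hV.fromSpec_primeIdealOf ⟨x, hxV⟩).symm.trans
    ((congrArg hV.fromSpec heq).trans (hV.fromSpec_primeIdealOf ⟨y, hy⟩))

theorem isClosed_singleton_of_ne {x : C} (hx : x ≠ genericPoint C) : IsClosed ({x} : Set C) :=
  isClosed_of_closure_subset fun _ hy =>
    (eq_of_specializes c hx (specializes_iff_mem_closure.2 hy)).symm

theorem not_isClosed_genericPoint : ¬ IsClosed ({genericPoint C} : Set C) := by
  intro hcl
  have huniv : ∀ y : C, y = genericPoint C := fun y => by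
    have := (genericPoint_spec C).specializes (Set.mem_univ y)
    exact hcl.closure_subset (specializes_iff_mem_closure.1 this)
  obtain ⟨V, hV, hη, hsm⟩ := exists_chart c (genericPoint C)
  have : Nonempty V := ⟨⟨_, hη⟩⟩
  let _ := (constHom c V).toAlgebra
  have : Algebra.FiniteType k Γ(C, V) := finiteType_constHom c hV
  have := hsm
  obtain ⟨m, hm⟩ := Ideal.exists_maximal Γ(C, V)
  refine maximal_ne_bot k Γ(C, V) m ?_
  have hmem : hV.fromSpec ⟨m, hm.isPrime⟩ ∈ V :=
    hV.range_fromSpec.subset (Set.mem_range_self _)
  have h := (primeIdealOf_eq_bot_iff hV ⟨_, hmem⟩).2 (huniv _)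
  have : hV.primeIdealOf ⟨_, hmem⟩ = ⟨m, hm.isPrime⟩ :=
    hV.fromSpec.injective (hV.fromSpec_primeIdealOf _)
  rwa [this] at h

theorem isClosed_singleton_iff {x : C} : IsClosed ({x} : Set C) ↔ x ≠ genericPoint C :=
  ⟨fun h hx => not_isClosed_genericPoint c (hx ▸ h), isClosed_singleton_of_ne c⟩

theorem isDiscreteValuationRing_stalk {x : C} (hx : x ≠ genericPoint C) :
    IsDiscreteValuationRing (C.presheaf.stalk x) := by
  obtain ⟨V, hV, hxV, hsm⟩ := exists_chart c x
  have : Nonempty V := ⟨⟨x, hxV⟩⟩
  let _ := (constHom c V).toAlgebra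
  have : Algebra.FiniteType k Γ(C, V) := finiteType_constHom c hV
  have := hsm
  have hmax := isMaximal_of_ne_bot k Γ(C, V) _ (mt (primeIdealOf_eq_bot_iff hV ⟨x, hxV⟩).1 hx)
  let _ := TopCat.Presheaf.algebra_section_stalk C.presheaf (⟨x, hxV⟩ : V)
  have := hV.isLocalization_stalk ⟨x, hxV⟩
  exact isDiscreteValuationRing_of_atMaximal k Γ(C, V) (hV.primeIdealOf ⟨x, hxV⟩).asIdeal _

end Points

section IsFunctionField

/-- The fraction field of a finitely generated one-dimensional domain is a function field of one
variable. -/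
theorem isFunctionField_of_isFractionRing (k A K : Type u) [Field k] [IsAlgClosed k] [CommRing A]
    [IsDomain A] [Algebra k A] [Algebra.FiniteType k A]
    [Algebra.IsStandardSmoothOfRelativeDimension 1 k A] [Field K] [Algebra A K]
    [IsFractionRing A K] [Algebra k K] [IsScalarTower k A K] : IsFunctionField k K := by
  classical
  obtain ⟨s, g, hg, hfin⟩ := exists_finite_inj_algHom_of_fg k A
  have hint : g.toRingHom.IsIntegral := RingHom.IsIntegral.of_finite hfin
  -- the number of parameters is one
  have hs : s = 1 := by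
    let _ := g.toRingHom.toAlgebra
    have : Algebra.IsIntegral (MvPolynomial (Fin s) k) A := ⟨hint⟩
    rcases s with _ | _ | s
    · have hbot : (⊥ : Ideal A).IsMaximal := by
        have hb : (⊥ : Ideal (MvPolynomial (Fin 0) k)).IsMaximal :=
          letI := ((MvPolynomial.isEmptyAlgEquiv k (Fin 0)).toMulEquiv.isField
            (Field.toIsField k)).toSemifield
          Ideal.bot_isMaximal
        refine Ideal.isMaximal_of_isIntegral_of_isMaximal_comap
          (R := MvPolynomial (Fin 0) k) _ ?_
        exact (Ideal.comap_bot_of_injective _ hg).symm ▸ hb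
      exact absurd rfl (maximal_ne_bot k A ⊥)
    · rfl
    · let φ : MvPolynomial (Fin (s + 2)) k →ₐ[k] Polynomial k :=
        MvPolynomial.aeval fun i => if i = 0 then 0 else Polynomial.X
      have hφ : Function.Surjective φ := by
        rw [← AlgHom.range_eq_top, eq_top_iff, ← Polynomial.adjoin_X, Algebra.adjoin_le_iff,
          Set.singleton_subset_iff]
        exact ⟨MvPolynomial.X 1, by simp [φ]⟩
      have hP : (RingHom.ker φ).IsPrime := RingHom.ker_isPrime φ
      obtain ⟨Q, hQ, hQP⟩ := Ideal.exists_ideal_over_prime_of_isIntegral_of_isDomain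
        (S := A) (RingHom.ker φ) (by
          exact le_of_eq_of_le ((RingHom.injective_iff_ker_eq_bot _).1 hg) bot_le)
      have hQ0 : Q ≠ ⊥ := by
        rintro rfl
        replace hQP : ⊥ = RingHom.ker φ := (Ideal.comap_bot_of_injective _ hg).symm.trans hQP
        have h0 : (MvPolynomial.X 0 : MvPolynomial (Fin (s + 2)) k) ∈ RingHom.ker φ := by
          simp [φ, RingHom.mem_ker]
        rw [← hQP, Ideal.mem_bot] at h0
        exact MvPolynomial.X_ne_zero _ h0
      have := isMaximal_of_ne_bot k A Q hQ0
      have hmax : (RingHom.ker φ).IsMaximal := hQP ▸ Ideal.IsMaximal.under _ Q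
      have hfield : IsField (Polynomial k) :=
        (RingHom.quotientKerEquivOfSurjective hφ).toMulEquiv.symm.isField
          ((Ideal.Quotient.maximal_ideal_iff_isField_quotient _).1 hmax)
      exact absurd hfield (Polynomial.not_isField k)
  subst hs
  have hAK : Function.Injective (algebraMap A K) := IsFractionRing.injective A K
  let x : K := algebraMap A K (g (MvPolynomial.X 0))
  let ψ : MvPolynomial (Fin 1) k →ₐ[k] K := (IsScalarTower.toAlgHom k A K).comp g
  have hψ : ψ = MvPolynomial.aeval fun _ => x := by
    ext i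
    simp [ψ, x, Fin.fin_one_eq_zero i]
  have hψinj : Function.Injective ψ := hAK.comp hg
  have hx : Transcendental k x := by
    rw [hψ] at hψinj
    have h : AlgebraicIndependent k (fun _ : Fin 1 => x) := hψinj
    simpa using h.transcendental 0
  refine ⟨⟨x, hx, ?_⟩⟩
  let L : IntermediateField k K := IntermediateField.adjoin k {x}
  have hmem : ∀ p, ψ p ∈ L := by
    intro p
    rw [hψ]
    exact IntermediateField.algebra_adjoin_le_adjoin k {x} (by
      rw [Algebra.adjoin_singleton_eq_range_aeval]
      refine ⟨MvPolynomial.aeval (fun _ => Polynomial.X) p, ?_⟩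
      show ((Polynomial.aeval x).comp (MvPolynomial.aeval fun _ => Polynomial.X)) p = _
      rw [MvPolynomial.comp_aeval]
      simp)
  have hintL : ∀ a : A, IsIntegral L (algebraMap A K a) := by
    intro a
    obtain ⟨p, hp, hpe⟩ := hint a
    refine ⟨p.map (ψ.toRingHom.codRestrict L.toSubfield.toSubring hmem), hp.map _, ?_⟩
    rw [Polynomial.eval₂_map]
    have : (algebraMap L K).comp (ψ.toRingHom.codRestrict L.toSubfield.toSubring hmem) =
        (algebraMap A K).comp g.toRingHom := RingHom.ext fun _ => rfl
    rw [this, ← Polynomial.hom_eval₂, hpe, map_zero]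
  obtain ⟨S, hS⟩ := Algebra.FiniteType.out (R := k) (A := A)
  let M := IntermediateField.adjoin L ((S.image (algebraMap A K) : Finset K) : Set K)
  have : FiniteDimensional L M := IntermediateField.finiteDimensional_adjoin fun y hy => by
    obtain ⟨a, -, rfl⟩ := Finset.mem_image.1 hy
    exact hintL a
  have hM : M = ⊤ := by
    have hA : ∀ a : A, algebraMap A K a ∈ M := by
      intro a
      have ha : a ∈ Algebra.adjoin k (S : Set A) := hS ▸ Algebra.mem_top
      induction ha using Algebra.adjoin_induction with
      | mem a ha => exact IntermediateField.subset_adjoin _ _ (Finset.mem_image_of_mem _ ha)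
      | algebraMap r =>
        rw [← IsScalarTower.algebraMap_apply k A K r,
          IsScalarTower.algebraMap_apply k L K r]
        exact M.algebraMap_mem _
      | add a b _ _ h₁ h₂ => rw [map_add]; exact add_mem h₁ h₂
      | mul a b _ _ h₁ h₂ => rw [map_mul]; exact mul_mem h₁ h₂
    refine eq_top_iff.2 fun f _ => ?_
    obtain ⟨a, b, -, rfl⟩ := IsFractionRing.div_surjective A f
    exact div_mem (hA a) (hA b)
  rw [hM] at this
  exact IntermediateField.topEquiv.toLinearEquiv.finiteDimensional

variable [IsAlgClosed k] [IsIntegral C] [SmoothOfRelativeDimension 1 c]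

instance isFunctionField_FF : IsFunctionField k (FF c) := by
  obtain ⟨V, hV, hη, hsm⟩ := exists_chart c (genericPoint C)
  have : Nonempty V := ⟨⟨_, hη⟩⟩
  let _ := (constHom c V).toAlgebra
  have : Algebra.FiniteType k Γ(C, V) := finiteType_constHom c hV
  have := hsm
  let _ : Algebra Γ(C, V) (FF c) := (toFF c V).toAlgebra
  have : IsFractionRing Γ(C, V) (FF c) := functionField_isFractionRing_of_isAffineOpen C V hV
  have : IsScalarTower k Γ(C, V) (FF c) :=
    IsScalarTower.of_algebraMap_eq fun a => (toFF_constHom c V a).symm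
  exact isFunctionField_of_isFractionRing k Γ(C, V) (FF c)

end IsFunctionField

end Fermat.Agent.Row24.Curve
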