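import Fermat.Agent.Row24.Curve.Sections

/-!
# The standard two-chart cover at a point

For a closed point `O` of a smooth proper curve: the affine open `U1 = C ∖ O`, a function `f` with
pole only at `O`, the affine open `U2 = C ∖ zeros f`, with overlap the nonvanishing locus of `f`
(and of `f⁻¹`), and the regularity facts that go with them.
-/

set_option autoImplicit false

universe u

noncomputable section

open CategoryTheory AlgebraicGeometry TopologicalSpace Opposite AlgebraicCurve
open Fermat.Agent.FunctionFieldRR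

namespace Fermat.Agent.Row24.Curve

variable {k : Type u} [Field k] [IsAlgClosed k] {C : Scheme.{u}}
  (c : C ⟶ Spec (CommRingCat.of k)) [IsIntegral C] [SmoothOfRelativeDimension 1 c]

/-- A two-chart cover at the point `O`. -/
structure Cover (O : CPoint C) where
  /-- the complement of the point -/
  U1 : C.Opens
  /-- the chart of the point -/
  U2 : C.Opens
  nonempty1 : Nonempty U1
  nonempty2 : Nonempty U2
  nonempty12 : Nonempty (U1 ⊓ U2 : C.Opens)
  isAffine1 : IsAffineOpen U1
  isAffine2 : IsAffineOpen U2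
  mem_U1 : ∀ v : CPoint C, (v : C) ∈ U1 ↔ v ≠ O
  mem_U2 : (O : C) ∈ U2
  sup_eq : U1 ⊔ U2 = ⊤
  /-- the function with pole only at `O` -/
  f : FF c
  f_ne : f ≠ 0
  ord_O : (pointPlace c O).ord f < 0
  ord_pos : ∀ v : CPoint C, v ≠ O → (v : C) ∉ U1 ⊓ U2 → 0 < (pointPlace c v).ord f
  /-- the function on the first chart -/
  x : Sec c U1
  /-- its inverse on the second chart -/
  y : Sec c U2
  secFF_x : (haveI := nonempty1; secFF c U1 x = f)
  secFF_y : (haveI := nonempty2; secFF c U2 y = f⁻¹)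
  basic1 : Scheme.basicOpen C (U := U1) x = U1 ⊓ U2
  basic2 : Scheme.basicOpen C (U := U2) y = U1 ⊓ U2

attribute [instance] Cover.nonempty1 Cover.nonempty2 Cover.nonempty12

theorem ext_of_cpoint {U V : C.Opens} [Nonempty U] [Nonempty V]
    (h : ∀ v : CPoint C, (v : C) ∈ U ↔ (v : C) ∈ V) : U = V := by
  ext y
  by_cases hy : y = genericPoint C
  · subst hy
    exact iff_of_true genericPoint_mem genericPoint_mem
  · exact h ⟨y, hy⟩

variable [IsProper c]

theorem nonempty_cover (O : CPoint C) : Nonempty (Cover c O) := by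
  classical
  let U1 := complOpen c {O}
  have hmem1 : ∀ v : CPoint C, (v : C) ∈ U1 ↔ v ≠ O := fun v => by
    rw [mem_complOpen, Finset.mem_singleton]
  obtain ⟨a, ha0, -, hpole, -⟩ := exists_section c {O} ∅ (Finset.singleton_nonempty O)
    (Finset.disjoint_empty_right _) O (Finset.notMem_empty _)
  have hO : (pointPlace c O).ord (toFF c U1 a) < 0 := hpole (Finset.mem_singleton_self O)
  let W := C.basicOpen a
  have hWne : Nonempty W := ⟨⟨genericPoint C, by
    rw [Scheme.mem_basicOpen C a _ genericPoint_mem]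
    exact isUnit_iff_ne_zero.2 fun h => ha0 h⟩⟩
  obtain ⟨S, hS⟩ := exists_eq_complOpen c W
  have hWmem : ∀ v : CPoint C, v ∉ S → (v : C) ∈ C.basicOpen a := fun v hv => by
    show (v : C) ∈ W
    rw [hS]
    exact (mem_complOpen c).2 hv
  have hOS : O ∈ S := by
    by_contra h
    have : (O : C) ∈ U1 := C.basicOpen_le a (hWmem O h)
    exact (hmem1 O).1 this rfl
  -- a zero of the function
  obtain ⟨P, hP⟩ := exists_ord_pos (transcendental_of_ord_ne_zero _ hO.ne)
  obtain ⟨z, rfl⟩ := exists_pointPlace_eq c P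
  have hzO : z ≠ O := fun h => by rw [h] at hP; omega
  have hzS : z ∈ S.erase O := by
    refine Finset.mem_erase.2 ⟨hzO, ?_⟩
    by_contra h
    have : (pointPlace c z).ord (toFF c U1 a) = 0 :=
      ((mem_basicOpen_iff c ((hmem1 z).2 hzO)).1 (hWmem z h)).2
    change 0 < (pointPlace c z).ord (toFF c U1 a) at hP
    omega
  let U2 := complOpen c (S.erase O)
  have hO2 : (O : C) ∈ U2 := (mem_complOpen c).2 (Finset.notMem_erase _ _)
  have h12 : ∀ v : CPoint C, (v : C) ∈ U1 ⊓ U2 ↔ v ∉ S := fun v => by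
    rw [Opens.mem_inf, hmem1, mem_complOpen, Finset.mem_erase]
    constructor
    · rintro ⟨h1, h2⟩ h
      exact h2 ⟨h1, h⟩
    · intro h
      exact ⟨fun h1 => h (h1 ▸ hOS), fun h2 => h h2.2⟩
  have hne12 : Nonempty (U1 ⊓ U2 : C.Opens) := nonempty_inf _ _
  have hW : W = U1 ⊓ U2 := ext_of_cpoint fun v => by rw [h12, hS, mem_complOpen]
  have hord0 : ∀ v : CPoint C, v ∉ S → (pointPlace c v).ord (toFF c U1 a) = 0 := fun v hv =>
    ((mem_basicOpen_iff c ((Opens.mem_inf.1 ((h12 v).2 hv)).1)).1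
      (hWmem v hv)).2
  obtain ⟨b, hb⟩ := exists_toFF_eq c U2 (toFF c U1 a)⁻¹ fun v hv => by
    rw [← ord_nonneg_iff, Place.ord_inv]
    by_cases hvO : v = O
    · subst hvO
      change (pointPlace c v).ord (toFF c U1 a) < 0 at hO
      omega
    · have hvS : v ∉ S := fun h => (mem_complOpen c).1 hv (Finset.mem_erase.2 ⟨hvO, h⟩)
      rw [hord0 v hvS, neg_zero]
  have hb0 : toFF c U2 b ≠ 0 := hb ▸ inv_ne_zero ha0
  have hbW : Nonempty (C.basicOpen b) := ⟨⟨genericPoint C, by
    rw [Scheme.mem_basicOpen C b _ genericPoint_mem]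
    exact isUnit_iff_ne_zero.2 fun h => hb0 h⟩⟩
  refine ⟨{
    U1 := U1
    U2 := U2
    nonempty1 := inferInstance
    nonempty2 := inferInstance
    nonempty12 := hne12
    isAffine1 := isAffineOpen_complOpen c _ (Finset.singleton_nonempty O)
    isAffine2 := isAffineOpen_complOpen c _ ⟨z, hzS⟩
    mem_U1 := hmem1
    mem_U2 := hO2
    sup_eq := top_unique fun y _ => ?_
    f := toFF c U1 a
    f_ne := ha0
    ord_O := hO
    ord_pos := fun v hv hv' => ?_
    x := a
    y := b
    secFF_x := rfl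
    secFF_y := hb
    basic1 := hW
    basic2 := ext_of_cpoint fun v => ?_ }⟩
  · by_cases hy : y = genericPoint C
    · exact Opens.mem_sup.2 (Or.inl (hy ▸ genericPoint_mem))
    · by_cases hyO : (⟨y, hy⟩ : CPoint C) = O
      · exact Opens.mem_sup.2 (Or.inr (by have h := congrArg Subtype.val hyO; simp only at h; rw [h]; exact hO2))
      · exact Opens.mem_sup.2 (Or.inl ((hmem1 ⟨y, hy⟩).2 hyO))
  · have h0 : 0 ≤ (pointPlace c v).ord (toFF c U1 a) :=
      (ord_nonneg_iff _ _).2 (toFF_mem_pointPlace c ((hmem1 v).2 hv) a)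
    refine lt_of_le_of_ne h0 fun h => hv' ?_
    rw [← hW]
    exact (mem_basicOpen_iff c ((hmem1 v).2 hv)).2 ⟨ha0, h.symm⟩
  · constructor
    · intro hv
      have hvU : (v : C) ∈ U2 := C.basicOpen_le b hv
      have := ((mem_basicOpen_iff c hvU).1 hv).2
      rw [hb, Place.ord_inv, neg_eq_zero] at this
      refine ⟨(hmem1 v).2 ?_, hvU⟩
      rintro rfl
      omega
    · intro hv
      have hvS : v ∉ S := (h12 v).1 hv
      refine (mem_basicOpen_iff c (Opens.mem_inf.1 hv).2).2 ⟨hb0, ?_⟩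
      rw [hb, Place.ord_inv, hord0 v hvS, neg_zero]

namespace Cover

variable {c} {O : CPoint C} (D : Cover c O)

omit [IsProper c] in
theorem not_mem_U1 : (O : C) ∉ D.U1 := fun h => (D.mem_U1 O).1 h rfl

theorem exists_bound {W : C.Opens} [Nonempty W] (z : FF c)
    (hz : ∀ v : CPoint C, (v : C) ∈ W → 0 ≤ (pointPlace c v).ord z) :
    ∃ n : ℕ, ∀ v : CPoint C, -(n : ℤ) ≤ (pointPlace c v).ord z := by
  obtain ⟨S, hS⟩ := exists_eq_complOpen c W
  refine ⟨(∑ v ∈ S, |(pointPlace c v).ord z|).toNat, fun v => ?_⟩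
  by_cases hv : v ∈ S
  · have h1 := Finset.single_le_sum (fun w _ => abs_nonneg ((pointPlace c w).ord z)) hv
    have h2 := neg_abs_le ((pointPlace c v).ord z)
    omega
  · have := hz v (hS ▸ (mem_complOpen c).2 hv)
    omega

/-- Sections over the overlap become regular on the first chart after multiplying by a power
of `x`. -/
theorem exists_loc1 (z : Sec c (D.U1 ⊓ D.U2)) :
    ∃ (n : ℕ) (a : Sec c D.U1),
      z * resAlg c inf_le_left D.x ^ n = resAlg c inf_le_left a := by
  set g := secFF c (D.U1 ⊓ D.U2) z with hg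
  obtain ⟨n, hn⟩ := exists_bound (c := c) (W := D.U1 ⊓ D.U2) g fun v hv =>
    (ord_nonneg_iff _ _).2 (toFF_mem_pointPlace c hv z)
  obtain ⟨a, ha⟩ := exists_toFF_eq c D.U1 (g * D.f ^ n) fun v hv => by
    by_cases hvW : (v : C) ∈ D.U1 ⊓ D.U2
    · refine mul_mem (toFF_mem_pointPlace c hvW z) (pow_mem ?_ n)
      rw [← D.secFF_x]
      exact toFF_mem_pointPlace c hv D.x
    rcases eq_or_ne g 0 with h0 | h0
    · rw [h0, zero_mul]; exact zero_mem _
    rw [← ord_nonneg_iff, Place.ord_mul _ h0 (pow_ne_zero _ D.f_ne), ord_pow]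
    have h1 := D.ord_pos v ((D.mem_U1 v).1 hv) hvW
    have h2 := hn v
    nlinarith
  refine ⟨n, a, secFF_injective c _ ?_⟩
  rw [map_mul, map_pow, secFF_resAlg, secFF_resAlg, D.secFF_x, secFF_apply c D.U1 a, ha]

/-- Sections over the overlap become regular on the second chart after multiplying by a power
of `y`. -/
theorem exists_loc2 (z : Sec c (D.U1 ⊓ D.U2)) :
    ∃ (n : ℕ) (a : Sec c D.U2),
      z * resAlg c inf_le_right D.y ^ n = resAlg c inf_le_right a := by
  set g := secFF c (D.U1 ⊓ D.U2) z with hg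
  obtain ⟨n, hn⟩ := exists_bound (c := c) (W := D.U1 ⊓ D.U2) g fun v hv =>
    (ord_nonneg_iff _ _).2 (toFF_mem_pointPlace c hv z)
  obtain ⟨a, ha⟩ := exists_toFF_eq c D.U2 (g * D.f⁻¹ ^ n) fun v hv => by
    by_cases hvO : v = O
    · subst hvO
      rcases eq_or_ne g 0 with h0 | h0
      · rw [h0, zero_mul]; exact zero_mem _
      rw [← ord_nonneg_iff, Place.ord_mul _ h0 (pow_ne_zero _ (inv_ne_zero D.f_ne)), ord_pow,
        Place.ord_inv]
      have h1 := D.ord_O
      have h2 := hn v
      nlinarith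
    · have hvW : (v : C) ∈ D.U1 ⊓ D.U2 := ⟨(D.mem_U1 v).2 hvO, hv⟩
      refine mul_mem (toFF_mem_pointPlace c hvW z) (pow_mem ?_ n)
      rw [← D.secFF_y]
      exact toFF_mem_pointPlace c hv D.y
  refine ⟨n, a, secFF_injective c _ ?_⟩
  rw [map_mul, map_pow, secFF_resAlg, secFF_resAlg, D.secFF_y, secFF_apply c D.U2 a, ha]

theorem finite1 : ((Polynomial.aeval (R := k) D.x).toRingHom).Finite :=
  finite_sec c D.isAffine1 D.x fun v hv => by
    obtain rfl : v = O := by_contra fun h => hv ((D.mem_U1 v).2 h)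
    rw [D.secFF_x]
    exact D.ord_O

theorem finite2 : ((Polynomial.aeval (R := k) D.y).toRingHom).Finite :=
  finite_sec c D.isAffine2 D.y fun v hv => by
    rw [D.secFF_y, Place.ord_inv, neg_neg_iff_pos]
    exact D.ord_pos v (fun h => hv (h ▸ D.mem_U2)) fun h => hv h.2

/-- A function regular on both charts is constant. -/
theorem eq_const_of_res_eq {a : Sec c D.U1} {b : Sec c D.U2}
    (h : resAlg c (inf_le_left : D.U1 ⊓ D.U2 ≤ D.U1) a = resAlg c inf_le_right b) :
    ∃ r : k, a = algebraMap k (Sec c D.U1) r := by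
  have hab : secFF c D.U1 a = secFF c D.U2 b := by
    rw [← secFF_resAlg c (inf_le_left : D.U1 ⊓ D.U2 ≤ D.U1), h, secFF_resAlg]
  obtain ⟨r, hr⟩ := exists_algebraMap_eq_of_forall_ord_nonneg (K := k) (f := secFF c D.U1 a)
    fun P => by
      obtain ⟨v, rfl⟩ := exists_pointPlace_eq c P
      rw [ord_nonneg_iff]
      by_cases hv : v = O
      · subst hv
        rw [hab]
        exact toFF_mem_pointPlace c D.mem_U2 b
      · exact toFF_mem_pointPlace c ((D.mem_U1 v).2 hv) a
  exact ⟨r, secFF_injective c D.U1 (by rw [AlgHom.commutes]; exact hr)⟩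

end Cover

end Fermat.Agent.Row24.Curve
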