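import Mathlib

/-!
# Smooth algebras of relative dimension one over an algebraically closed field

Commutative algebra of a domain `A` which is standard smooth of relative dimension one over an
algebraically closed field: a maximal ideal is nonzero and is, modulo its square, generated by one
element; so its local rings are discrete valuation rings and nonzero primes are maximal.
-/

set_option autoImplicit false

universe u

noncomputable section

open IsLocalRing
open scoped TensorProduct

namespace Fermat.Agent.Row24.Curve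

/-- An ideal whose cotangent module embeds into a cyclic module killed by the ideal is generated
by one element modulo its square. -/
theorem exists_le_span_sup_sq_of_injective {A : Type u} [CommRing A] (q : Ideal A)
    (hq : q.IsMaximal) {M : Type*} [AddCommGroup M] [Module A M]
    (f : q.Cotangent →ₗ[A] M) (hinj : Function.Injective f) (e : M)
    (he : ∀ i ∈ q, i • e = 0) (hcyc : ∀ y : M, ∃ a : A, y = a • e) :
    ∃ t ∈ q, q ≤ Ideal.span {t} ⊔ q ^ 2 := by
  by_cases h0 : ∀ x : q, q.toCotangent x = 0
  · exact ⟨0, q.zero_mem, fun x hx =>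
      Submodule.mem_sup_right ((q.toCotangent_eq_zero ⟨x, hx⟩).1 (h0 _))⟩
  obtain ⟨t, ht⟩ := not_forall.1 h0
  refine ⟨t, t.2, fun x hx => ?_⟩
  obtain ⟨a, ha⟩ := hcyc (f (q.toCotangent t))
  obtain ⟨b, hb⟩ := hcyc (f (q.toCotangent ⟨x, hx⟩))
  have hap : a ∉ q := fun hmem => ht (hinj (by rw [map_zero, ha, he a hmem]))
  obtain ⟨a', i, hi, hai⟩ := hq.exists_inv hap
  have hz : q.toCotangent (⟨x, hx⟩ - (b * a') • t) = 0 := by
    refine hinj ?_
    rw [map_zero, map_sub, map_smul, map_sub, map_smul, ha, hb, smul_smul, ← sub_smul]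
    have : b - b * a' * a = b * i := by linear_combination -b * hai
    rw [this, mul_smul, he i hi, smul_zero]
  have hz' : x - b * a' * t ∈ q ^ 2 := (q.toCotangent_eq_zero _).1 hz
  refine Submodule.mem_sup.2 ⟨b * a' * t, ?_, x - b * a' * t, hz', by ring⟩
  exact Ideal.mem_span_singleton'.2 ⟨b * a', rfl⟩

variable (k A : Type u) [Field k] [IsAlgClosed k] [CommRing A] [Algebra k A]
  [Algebra.FiniteType k A]

/-- Zariski's lemma over an algebraically closed field. -/
theorem algebraMap_quotient_bijective (p : Ideal A) [p.IsMaximal] :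
    Function.Bijective (algebraMap k (A ⧸ p)) := by
  let _ : Field (A ⧸ p) := Ideal.Quotient.field p
  have : Algebra.FiniteType k (A ⧸ p) :=
    Algebra.FiniteType.of_surjective (Ideal.Quotient.mkₐ k p) Ideal.Quotient.mk_surjective
  have : Module.Finite k (A ⧸ p) := finite_of_finite_type_of_isJacobsonRing k (A ⧸ p)
  exact IsAlgClosed.algebraMap_bijective_of_isIntegral

variable [IsDomain A] [Algebra.IsStandardSmoothOfRelativeDimension 1 k A]

include k

/-- A domain of relative dimension one is not a field. -/
theorem maximal_ne_bot (p : Ideal A) [p.IsMaximal] : p ≠ ⊥ := by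
  rintro rfl
  have hb := algebraMap_quotient_bijective k A ⊥
  have hq : Function.Injective (Ideal.Quotient.mk (⊥ : Ideal A)) := by
    rw [RingHom.injective_iff_ker_eq_bot, Ideal.mk_ker]
  have hs : Function.Surjective (algebraMap k A) := fun a => by
    obtain ⟨c, hc⟩ := hb.2 (Ideal.Quotient.mk _ a)
    exact ⟨c, hq ((Ideal.Quotient.mk_algebraMap k _ c).trans hc)⟩
  have : Subsingleton (Ω[A⁄k]) := KaehlerDifferential.subsingleton_of_surjective k A hs
  have h1 := Algebra.IsStandardSmoothOfRelativeDimension.rank_kaehlerDifferential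
    (R := k) (S := A) 1
  simp at h1

/-- A maximal ideal is generated by one element modulo its square. -/
theorem exists_le_span_sup_sq (p : Ideal A) [p.IsMaximal] :
    ∃ t ∈ p, p ≤ Ideal.span {t} ⊔ p ^ 2 := by
  classical
  have : Algebra.IsStandardSmooth k A :=
    Algebra.IsStandardSmoothOfRelativeDimension.isStandardSmooth (n := 1)
  have hsm : Algebra.FormallySmooth k (A ⧸ p) :=
    Algebra.FormallySmooth.of_equiv
      (AlgEquiv.ofBijective (Algebra.ofId k (A ⧸ p)) (algebraMap_quotient_bijective k A p))
  obtain ⟨l, hl⟩ := (Algebra.FormallySmooth.iff_split_injection (R := k) (P := A) (A := A ⧸ p)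
    Ideal.Quotient.mk_surjective).1 hsm
  have hker : RingHom.ker (algebraMap A (A ⧸ p)) = p := by
    rw [Ideal.Quotient.algebraMap_eq, Ideal.mk_ker]
  have hrk := Algebra.IsStandardSmoothOfRelativeDimension.rank_kaehlerDifferential
    (R := k) (S := A) 1
  rw [Nat.cast_one] at hrk
  obtain ⟨ω, hω⟩ : ∃ ω : Ω[A⁄k], Submodule.span A {ω} = ⊤ := by
    have hfin : Module.finrank A (Ω[A⁄k]) = 1 := by
      rw [Module.finrank, hrk, Cardinal.one_toNat]
    let b := Module.basisUnique Unit hfin
    refine ⟨b (), ?_⟩
    rw [← b.span_eq, Set.range_unique]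
  -- every element of the target is a multiple of `1 ⊗ ω`
  have hcyc : ∀ y : (A ⧸ p) ⊗[A] Ω[A⁄k], ∃ a : A, y = a • ((1 : A ⧸ p) ⊗ₜ ω) := by
    intro y
    induction y using TensorProduct.induction_on with
    | zero => exact ⟨0, (zero_smul _ _).symm⟩
    | tmul q η =>
      obtain ⟨q, rfl⟩ := Ideal.Quotient.mk_surjective q
      obtain ⟨b, rfl⟩ := Submodule.mem_span_singleton.1 (hω ▸ Submodule.mem_top : η ∈ _)
      refine ⟨q * b, ?_⟩
      rw [TensorProduct.tmul_smul, mul_comm, mul_smul, TensorProduct.smul_tmul' q]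
      congr 2
      rw [Algebra.smul_def, mul_one, Ideal.Quotient.algebraMap_eq]
    | add y z hy hz =>
      obtain ⟨a, rfl⟩ := hy
      obtain ⟨b, rfl⟩ := hz
      exact ⟨a + b, (add_smul a b _).symm⟩
  obtain ⟨f, hinj⟩ : ∃ f : (RingHom.ker (algebraMap A (A ⧸ p))).Cotangent →ₗ[A]
      (A ⧸ p) ⊗[A] Ω[A⁄k], Function.Injective f :=
    ⟨KaehlerDifferential.kerCotangentToTensor k A (A ⧸ p),
      Function.LeftInverse.injective (g := l) fun x => LinearMap.congr_fun hl x⟩
  have h := exists_le_span_sup_sq_of_injective (RingHom.ker (algebraMap A (A ⧸ p)))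
    (hker.symm ▸ ‹p.IsMaximal›) f hinj ((1 : A ⧸ p) ⊗ₜ ω) (fun i hi => by
      rw [TensorProduct.smul_tmul', Algebra.smul_def, RingHom.mem_ker.1 hi, zero_mul,
        TensorProduct.zero_tmul]) hcyc
  rwa [hker] at h

/-- The local rings at maximal ideals are discrete valuation rings. -/
theorem isDiscreteValuationRing_of_atMaximal (p : Ideal A) [p.IsMaximal] (S : Type u) [CommRing S]
    [IsDomain S] [Algebra A S] [IsLocalization.AtPrime S p] : IsDiscreteValuationRing S := by
  have : IsNoetherianRing A := Algebra.FiniteType.isNoetherianRing k A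
  have : IsLocalRing S := IsLocalization.AtPrime.isLocalRing S p
  have : IsNoetherianRing S := IsLocalization.isNoetherianRing p.primeCompl S ‹_›
  have hmap : p.map (algebraMap A S) = maximalIdeal S :=
    IsLocalization.AtPrime.map_eq_maximalIdeal p S
  obtain ⟨t, htp, ht⟩ := exists_le_span_sup_sq k A p
  have hinjS : Function.Injective (algebraMap A S) :=
    IsLocalization.injective S p.primeCompl_le_nonZeroDivisors
  have hnf : ¬ IsField S := by
    rw [IsLocalRing.isField_iff_maximalIdeal_eq]
    intro h
    refine maximal_ne_bot k A p ((Submodule.eq_bot_iff _).2 fun a ha => hinjS ?_)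
    rw [map_zero, ← Ideal.mem_bot, ← h, ← hmap]
    exact Ideal.mem_map_of_mem _ ha
  have hle : maximalIdeal S ≤ Ideal.span {algebraMap A S t} ⊔ maximalIdeal S • maximalIdeal S := by
    have h := Ideal.map_mono (f := algebraMap A S) ht
    rwa [Ideal.map_sup, Ideal.map_span, Set.image_singleton, Ideal.map_pow, hmap, pow_two] at h
  have hgen : maximalIdeal S ≤ Ideal.span {algebraMap A S t} :=
    Submodule.le_of_le_smul_of_le_jacobson_bot (IsNoetherian.noetherian _)
      (IsLocalRing.jacobson_eq_maximalIdeal _ bot_ne_top).ge hle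
  refine ((IsDiscreteValuationRing.TFAE S hnf).out 4 0).1 ?_
  refine ⟨⟨algebraMap A S t, le_antisymm hgen ?_⟩⟩
  rw [Ideal.span_le, Set.singleton_subset_iff, SetLike.mem_coe, ← hmap]
  exact Ideal.mem_map_of_mem _ htp

/-- Nonzero primes are maximal. -/
theorem isMaximal_of_ne_bot (p : Ideal A) [p.IsPrime] (hp : p ≠ ⊥) : p.IsMaximal := by
  obtain ⟨m, hm, hpm⟩ := p.exists_le_maximal (Ideal.IsPrime.ne_top ‹_›)
  let S := Localization.AtPrime m
  have : IsDiscreteValuationRing S := isDiscreteValuationRing_of_atMaximal k A m S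
  have hdisj : Disjoint (m.primeCompl : Set A) p := Set.disjoint_left.2 fun a ha hap => ha (hpm hap)
  have hq : (p.map (algebraMap A S)).IsPrime :=
    IsLocalization.isPrime_of_isPrime_disjoint m.primeCompl S p ‹_› hdisj
  have hback := IsLocalization.under_map_of_isPrime_disjoint m.primeCompl S ‹p.IsPrime› hdisj
  have hne : p.map (algebraMap A S) ≠ ⊥ := by
    intro h
    rw [h, Ideal.under, Ideal.comap_bot_of_injective _
      (IsLocalization.injective S m.primeCompl_le_nonZeroDivisors)] at hback
    exact hp hback.symm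
  have hmax : (p.map (algebraMap A S)).IsMaximal := hq.isMaximal hne
  rw [IsLocalRing.eq_maximalIdeal hmax, IsLocalization.AtPrime.under_maximalIdeal S m] at hback
  exact hback ▸ hm

end Fermat.Agent.Row24.Curve
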