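import Fermat.Agent.Row24.Curve.Places

/-!
# Open subsets of a smooth curve and their sections

Nonempty open sets are complements of finite sets of closed points; a rational function regular at
every closed point of an open set is a section over it.
-/

set_option autoImplicit false

universe u

noncomputable section

open CategoryTheory AlgebraicGeometry TopologicalSpace Opposite AlgebraicCurve
open Fermat.Agent.FunctionFieldRR

namespace Fermat.Agent.Row24.Curve

variable {k : Type u} [Field k] [IsAlgClosed k] {C : Scheme.{u}}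
  (c : C ⟶ Spec (CommRingCat.of k)) [IsIntegral C] [SmoothOfRelativeDimension 1 c]

theorem genericPoint_mem {U : C.Opens} [Nonempty U] : genericPoint C ∈ U :=
  (genericPoint_spec C).mem_open_set_iff U.isOpen |>.2 (by simpa using ‹Nonempty U›)

theorem nonempty_inf (U V : C.Opens) [Nonempty U] [Nonempty V] :
    Nonempty (U ⊓ V : C.Opens) :=
  ⟨⟨genericPoint C, genericPoint_mem, genericPoint_mem⟩⟩

/-- A rational function which is regular at every closed point of an open set is a section. -/
theorem exists_toFF_eq (U : C.Opens) [Nonempty U] (f : FF c)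
    (h : ∀ x : CPoint C, (x : C) ∈ U → f ∈ (pointPlace c x).toValuationSubring) :
    ∃ a : Γ(C, U), toFF c U a = f := by
  classical
  have hloc : ∀ y : U, ∃ (V : C.Opens) (_ : (y : C) ∈ V) (a : Γ(C, V)) (_ : Nonempty V),
      toFF c V a = f := by
    intro y
    by_cases hy : (y : C) = genericPoint C
    · obtain ⟨V, hV, a, ha⟩ := C.presheaf.exists_germ_eq (f : C.functionField)
      exact ⟨V, hy ▸ hV, a, ⟨⟨_, hV⟩⟩, ha⟩
    · obtain ⟨V, hV, a, ha⟩ := (mem_pointPlace_iff_exists_section c).1 (h ⟨y, hy⟩ y.2)
      exact ⟨V, hV, a, ⟨⟨_, hV⟩⟩, ha⟩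
  choose V hyV a hne ha using hloc
  have hneU : ∀ y : U, Nonempty (U ⊓ V y : C.Opens) := fun y => ⟨⟨y, y.2, hyV y⟩⟩
  let sf : ∀ y : U, Γ(C, U ⊓ V y) :=
    fun y => C.presheaf.map (homOfLE inf_le_right).op (a y)
  have hsf : ∀ y, toFF c (U ⊓ V y) (sf y) = f := fun y =>
    (toFF_map c inf_le_right (a y)).trans (ha y)
  have hcompat : TopCat.Presheaf.IsCompatible C.presheaf (fun y : U => U ⊓ V y) sf := by
    intro i j
    have := nonempty_inf (U ⊓ V i) (U ⊓ V j)
    refine toFF_injective c _ ?_
    exact (toFF_map c inf_le_left (sf i)).trans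
      ((hsf i).trans ((toFF_map c inf_le_right (sf j)).trans (hsf j)).symm)
  obtain ⟨s, hs, -⟩ := C.sheaf.existsUnique_gluing' (fun y : U => U ⊓ V y) U
    (fun _ => homOfLE inf_le_left)
    (fun y hy => Opens.mem_iSup.2 ⟨⟨y, hy⟩, hy, hyV ⟨y, hy⟩⟩) sf hcompat
  obtain ⟨y⟩ := ‹Nonempty U›
  exact ⟨s, ((toFF_map c inf_le_left s).symm.trans (congrArg _ (hs y))).trans (hsf y)⟩

/-- A section is invertible at a closed point iff its function is a unit of the valuation ring. -/
theorem mem_basicOpen_iff {U : C.Opens} [Nonempty U] {x : CPoint C} (hx : (x : C) ∈ U)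
    {a : Γ(C, U)} : (x : C) ∈ C.basicOpen a ↔
      toFF c U a ≠ 0 ∧ (pointPlace c x).ord (toFF c U a) = 0 := by
  rw [Scheme.mem_basicOpen C a x hx, ← stalkHom_germ c hx a]
  set b := C.presheaf.germ U x hx a
  have hb : stalkHom c x b ∈ (pointPlace c x).toValuationSubring :=
    (mem_pointPlace c).2 ⟨b, rfl⟩
  constructor
  · intro hu
    obtain ⟨b', hb'⟩ := isUnit_iff_exists_inv.1 hu
    have h1 : stalkHom c x b * stalkHom c x b' = 1 := by rw [← map_mul, hb', map_one]
    have hne := left_ne_zero_of_mul_eq_one h1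
    refine ⟨hne, le_antisymm ?_ ((ord_nonneg_iff _ _).2 hb)⟩
    have h2 : 0 ≤ (pointPlace c x).ord (stalkHom c x b') :=
      (ord_nonneg_iff _ _).2 ((mem_pointPlace c).2 ⟨b', rfl⟩)
    rw [eq_inv_of_mul_eq_one_right h1, Place.ord_inv] at h2
    omega
  · rintro ⟨hne, hord⟩
    have : (stalkHom c x b)⁻¹ ∈ (pointPlace c x).toValuationSubring := by
      rw [← ord_nonneg_iff, Place.ord_inv, hord, neg_zero]
    obtain ⟨b', hb'⟩ := (mem_pointPlace c).1 this
    exact IsUnit.of_mul_eq_one b'
      (stalkHom_injective c x (by rw [map_mul, map_one, hb', mul_inv_cancel₀ hne]))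

section Finite

variable [IsProper c]

include c

omit [IsAlgClosed k] [AlgebraicGeometry.IsIntegral C] [SmoothOfRelativeDimension 1 c] in
theorem isNoetherian_curve : IsNoetherian C := by
  have : IsLocallyNoetherian C := LocallyOfFiniteType.isLocallyNoetherian c
  have : CompactSpace C := QuasiCompact.compactSpace_of_compactSpace c
  exact {}

/-- A closed set not containing the generic point is finite. -/
theorem finite_of_isClosed {Z : Set C} (hZ : IsClosed Z) (hη : genericPoint C ∉ Z) :
    Z.Finite := by
  have := isNoetherian_curve c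
  obtain ⟨S, hS, hcl, hirr, rfl⟩ := NoetherianSpace.exists_finite_set_isClosed_irreducible hZ
  refine hS.sUnion fun t ht => Set.Subsingleton.finite fun a ha b hb => ?_
  have hgen := (hirr t ht).isGenericPoint_genericPoint (hcl t ht)
  have hne : (hirr t ht).genericPoint ≠ genericPoint C := fun h =>
    hη ⟨t, ht, h ▸ hgen.mem⟩
  exact (eq_of_specializes c hne (hgen.specializes ha)).symm.trans
    (eq_of_specializes c hne (hgen.specializes hb))

/-- A nonempty open set is the complement of a finite set. -/
theorem finite_compl (U : C.Opens) [Nonempty U] : ((U : Set C)ᶜ).Finite :=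
  finite_of_isClosed c U.isOpen.isClosed_compl fun h => h genericPoint_mem

end Finite

include c in
/-- A finite set of closed points is closed. -/
theorem isClosed_image_coe (S : Finset (CPoint C)) :
    IsClosed (Subtype.val '' (S : Set (CPoint C))) := by
  rw [← Set.biUnion_of_singleton (Subtype.val '' (S : Set (CPoint C)))]
  exact ((S.finite_toSet).image _).isClosed_biUnion fun y ⟨x, _, hx⟩ =>
    hx ▸ isClosed_singleton_of_ne c x.2

/-- The complement of a finite set of closed points. -/
def complOpen (S : Finset (CPoint C)) : C.Opens :=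
  ⟨(Subtype.val '' (S : Set (CPoint C)))ᶜ, (isClosed_image_coe c S).isOpen_compl⟩

theorem mem_complOpen {S : Finset (CPoint C)} {x : CPoint C} :
    (x : C) ∈ complOpen c S ↔ x ∉ S := by
  exact not_congr ⟨fun ⟨y, hy, h⟩ => Subtype.ext h ▸ hy, fun h => ⟨x, h, rfl⟩⟩

instance nonempty_complOpen (S : Finset (CPoint C)) : Nonempty (complOpen c S) :=
  ⟨⟨genericPoint C, fun ⟨x, _, hx⟩ => x.2 hx⟩⟩

/-- Every nonempty open set of a proper curve is `complOpen c S` for some `S`. -/
theorem exists_eq_complOpen [IsProper c] (U : C.Opens) [Nonempty U] :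
    ∃ S : Finset (CPoint C), U = complOpen c S := by
  classical
  refine ⟨((finite_compl c U).preimage Subtype.val_injective.injOn).toFinset, ?_⟩
  ext y
  by_cases hy : y = genericPoint C
  · subst hy
    exact iff_of_true genericPoint_mem genericPoint_mem
  · exact iff_of_eq (propext (by
      rw [show y = ((⟨y, hy⟩ : CPoint C) : C) from rfl, SetLike.mem_coe, SetLike.mem_coe,
        mem_complOpen]
      simp))

end Fermat.Agent.Row24.Curve
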