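import Fermat.Agent.Row24.Curve.Basic

/-!
# Closed points and places of a smooth proper curve

The local ring of a closed point is the valuation ring of a place of the function field; for a
proper curve this is a bijection between closed points and places (valuative criterion).
-/

set_option autoImplicit false

universe u

noncomputable section

open CategoryTheory AlgebraicGeometry TopologicalSpace Opposite AlgebraicCurve
open Fermat.Agent.FunctionFieldRR

namespace Fermat.Agent.Row24.Curve

variable {k : Type u} [Field k] [IsAlgClosed k] {C : Scheme.{u}}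
  (c : C ⟶ Spec (CommRingCat.of k)) [IsIntegral C] [SmoothOfRelativeDimension 1 c]

/-- Closed points of `C`. -/
abbrev CPoint (C : Scheme.{u}) [IsIntegral C] : Type u := {x : C // x ≠ genericPoint C}

/-- The local ring at a point inside the function field. -/
def stalkHom (x : C) : C.presheaf.stalk x →+* FF c :=
  (C.presheaf.stalkSpecializes ((genericPoint_spec C).specializes trivial)).hom

omit [IsAlgClosed k] [SmoothOfRelativeDimension 1 c] in
theorem stalkHom_injective (x : C) : Function.Injective (stalkHom c x) :=
  IsFractionRing.injective (C.presheaf.stalk x) C.functionField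

omit [IsAlgClosed k] [SmoothOfRelativeDimension 1 c] in
theorem stalkHom_germ {U : C.Opens} [Nonempty U] {x : C} (hx : x ∈ U) (a : Γ(C, U)) :
    stalkHom c x (C.presheaf.germ U x hx a) = toFF c U a :=
  Scheme.algebraMap_germ_eq_germToFunctionField C hx a

/-- The constants in the local ring at `x`. -/
def stalkConst (x : C) : k →+* C.presheaf.stalk x :=
  (C.presheaf.germ ⊤ x trivial).hom.comp (constHom c ⊤)

omit [IsAlgClosed k] [SmoothOfRelativeDimension 1 c] in
theorem stalkHom_comp_stalkConst (x : C) :
    (stalkHom c x).comp (stalkConst c x) = algebraMap k (FF c) := by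
  ext a
  exact (stalkHom_germ c (U := ⊤) trivial _).trans (toFF_constHom c ⊤ a)

omit [IsAlgClosed k] [AlgebraicGeometry.IsIntegral C] [SmoothOfRelativeDimension 1 c] in
theorem fromSpecStalk_comp (x : C) :
    C.fromSpecStalk x ≫ c = Spec.map (CommRingCat.ofHom (stalkConst c x)) := by
  have h := Scheme.toSpecΓ_naturality c
  rw [← SpecMap_ΓSpecIso_hom] at h
  have hc : c = C.toSpecΓ ≫ Spec.map c.appTop ≫
      Spec.map (Scheme.ΓSpecIso (CommRingCat.of k)).inv := by
    rw [← Category.assoc, ← h, Category.assoc, ← Spec.map_comp, Iso.inv_hom_id, Spec.map_id,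
      Category.comp_id]
  conv_lhs => rw [hc]
  rw [Scheme.fromSpecStalk_toSpecΓ_assoc, ← Spec.map_comp, ← Spec.map_comp]
  congr 1
  rw [Category.assoc]
  show _ = (Scheme.ΓSpecIso (CommRingCat.of k)).inv ≫ c.appLE ⊤ ⊤ le_top ≫
    C.presheaf.germ ⊤ x trivial
  rw [Scheme.Hom.appTop, c.app_eq_appLE]
  rfl

theorem mem_or_inv_mem_range_stalkHom {x : C} (hx : x ≠ genericPoint C) (f : FF c) :
    f ∈ (stalkHom c x).range ∨ f⁻¹ ∈ (stalkHom c x).range := by
  have := isDiscreteValuationRing_stalk c hx
  rcases ValuationRing.isInteger_or_isInteger (C.presheaf.stalk x) (K := C.functionField) f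
    with h | h
  · exact Or.inl h
  · exact Or.inr h

/-- The valuation subring of a closed point. -/
def pointSubring (x : CPoint C) : ValuationSubring (FF c) :=
  { (stalkHom c x).range with
    mem_or_inv_mem' := mem_or_inv_mem_range_stalkHom c x.2 }

theorem mem_pointSubring {x : CPoint C} {f : FF c} :
    f ∈ pointSubring c x ↔ ∃ a, stalkHom c x a = f :=
  Iff.rfl

theorem algebraMap_mem_pointSubring (x : CPoint C) (a : k) :
    algebraMap k (FF c) a ∈ pointSubring c x :=
  ⟨stalkConst c x a, RingHom.congr_fun (stalkHom_comp_stalkConst c x) a⟩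

theorem pointSubring_ne_top (x : CPoint C) : pointSubring c x ≠ ⊤ := by
  intro h
  have := isDiscreteValuationRing_stalk c x.2
  refine IsDiscreteValuationRing.not_isField (C.presheaf.stalk (x : C))
    ((RingEquiv.ofBijective (stalkHom c x) ⟨stalkHom_injective c x, fun f => ?_⟩).toMulEquiv.isField
      (Field.toIsField (FF c)))
  exact (mem_pointSubring c).1 (h ▸ ValuationSubring.mem_top f)

/-- The place of a closed point. -/
def pointPlace (x : CPoint C) : Place k (FF c) :=
  placeOfValuationSubring (pointSubring c x) (algebraMap_mem_pointSubring c x)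
    (pointSubring_ne_top c x)

theorem mem_pointPlace {x : CPoint C} {f : FF c} :
    f ∈ (pointPlace c x).toValuationSubring ↔ ∃ a, stalkHom c x a = f :=
  Iff.rfl

/-- A function is regular at a closed point iff it is a section near that point. -/
theorem mem_pointPlace_iff_exists_section {x : CPoint C} {f : FF c} :
    f ∈ (pointPlace c x).toValuationSubring ↔
      ∃ (U : C.Opens) (hx : (x : C) ∈ U) (a : Γ(C, U)),
        (haveI : Nonempty U := ⟨⟨_, hx⟩⟩; toFF c U a = f) := by
  rw [mem_pointPlace]
  constructor
  · rintro ⟨a, rfl⟩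
    obtain ⟨U, hU, b, rfl⟩ := C.presheaf.exists_germ_eq a
    have : Nonempty U := ⟨⟨_, hU⟩⟩
    exact ⟨U, hU, b, (stalkHom_germ c hU b).symm⟩
  · rintro ⟨U, hU, b, h⟩
    have : Nonempty U := ⟨⟨_, hU⟩⟩
    exact ⟨C.presheaf.germ U x hU b, (stalkHom_germ c hU b).trans h⟩

theorem toFF_mem_pointPlace {U : C.Opens} [Nonempty U] {x : CPoint C} (hx : (x : C) ∈ U)
    (a : Γ(C, U)) : toFF c U a ∈ (pointPlace c x).toValuationSubring :=
  (mem_pointPlace c).2 ⟨C.presheaf.germ U x hx a, stalkHom_germ c hx a⟩

section Proper

variable [IsProper c]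

/-- The generic point, as a morphism from the spectrum of the function field. -/
def genericMap : Spec (CommRingCat.of (FF c)) ⟶ C :=
  C.fromSpecStalk (genericPoint C)

omit [IsAlgClosed k] [SmoothOfRelativeDimension 1 c] [IsProper c] in
theorem genericMap_eq (x : C) :
    genericMap c = Spec.map (CommRingCat.ofHom (stalkHom c x)) ≫ C.fromSpecStalk x :=
  (Scheme.SpecMap_stalkSpecializes_fromSpecStalk
    ((genericPoint_spec C).specializes (Set.mem_univ x))).symm

omit [IsAlgClosed k] [SmoothOfRelativeDimension 1 c] [IsProper c] in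
theorem genericMap_comp :
    genericMap c ≫ c = Spec.map (CommRingCat.ofHom (algebraMap k (FF c))) := by
  rw [genericMap_eq c (genericPoint C), Category.assoc, fromSpecStalk_comp, ← Spec.map_comp,
    ← CommRingCat.ofHom_comp, stalkHom_comp_stalkConst]

/-- The square of the valuative criterion attached to a place. -/
def placeSq (P : Place k (FF c)) : ValuativeCommSq c where
  R := P.toValuationSubring
  K := FF c
  i₁ := genericMap c
  i₂ := Spec.map (CommRingCat.ofHom
    ((algebraMap k (FF c)).codRestrict P.toValuationSubring.toSubring P.algebraMap_mem'))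
  commSq := ⟨by
    rw [genericMap_comp, ← Spec.map_comp, ← CommRingCat.ofHom_comp]
    rfl⟩

theorem exists_pointPlace_eq (P : Place k (FF c)) : ∃ x : CPoint C, pointPlace c x = P := by
  have huc : UniversallyClosed c := inferInstance
  rw [UniversallyClosed.eq_valuativeCriterion] at huc
  obtain ⟨l, hl, -⟩ := (huc.1 (placeSq c P)).exists_lift
  let x := l (IsLocalRing.closedPoint P.toValuationSubring)
  let φ : C.presheaf.stalk x ⟶ CommRingCat.of P.toValuationSubring :=
    Scheme.stalkClosedPointTo (R := CommRingCat.of P.toValuationSubring) l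
  have hφ : φ ≫ CommRingCat.ofHom P.toValuationSubring.subtype =
      CommRingCat.ofHom (stalkHom c x) := by
    apply Spec.map_injective
    rw [← cancel_mono (C.fromSpecStalk x), ← genericMap_eq, Spec.map_comp, Category.assoc]
    exact (congrArg (_ ≫ ·) (Scheme.Spec_stalkClosedPointTo_fromSpecStalk
      (R := CommRingCat.of P.toValuationSubring) l)).trans hl
  have hle : ∀ a, stalkHom c x a ∈ P.toValuationSubring := fun a => by
    have := congrArg (fun ψ => ψ.hom a) hφ
    exact this ▸ (φ a).2
  have hx : x ≠ genericPoint C := by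
    intro hx
    refine P.ne_top' (top_unique fun f _ => ?_)
    obtain ⟨a, b, -, rfl⟩ := IsFractionRing.div_surjective (K := C.functionField)
      (C.presheaf.stalk x) f
    have hf : IsField (C.presheaf.stalk x) := by
      rw [hx]
      exact Field.toIsField C.functionField
    let _ := hf.toField
    have hab : stalkHom c x (a / b) = stalkHom c x a / stalkHom c x b := map_div₀ _ _ _
    exact hab ▸ hle _
  refine ⟨⟨x, hx⟩, eq_of_forall_mem ?_⟩
  rintro f hf
  obtain ⟨a, rfl⟩ := (mem_pointPlace c).1 hf
  exact hle a

theorem pointPlace_injective : Function.Injective (pointPlace c) := by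
  intro x y hxy
  set P := pointPlace c x
  have key : ∀ z : CPoint C, pointPlace c z = P →
      ∃ L : (placeSq c P).commSq.LiftStruct,
        L.l (IsLocalRing.closedPoint P.toValuationSubring) = z := by
    intro z hz
    let φ : C.presheaf.stalk (z : C) →+* P.toValuationSubring :=
      (stalkHom c z).codRestrict P.toValuationSubring.toSubring fun a =>
        hz ▸ (mem_pointPlace c).2 ⟨a, rfl⟩
    have hbij : Function.Bijective φ := ⟨fun a b h => stalkHom_injective c z
      (congrArg Subtype.val h), fun f => by
        obtain ⟨a, ha⟩ := (mem_pointPlace c (x := z) (f := f)).1 (by rw [hz]; exact f.2)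
        exact ⟨a, Subtype.ext ha⟩⟩
    have : IsLocalHom φ :=
      ⟨fun a ha => by
        obtain ⟨b, hb⟩ := hbij.2 ↑(ha.unit⁻¹)
        refine IsUnit.of_mul_eq_one b (hbij.1 ?_)
        rw [map_mul, map_one, hb]
        exact ha.mul_val_inv⟩
    refine ⟨⟨Spec.map (CommRingCat.ofHom φ) ≫ C.fromSpecStalk z, ?_, ?_⟩, ?_⟩
    · show _ = genericMap c
      rw [genericMap_eq c z, ← Category.assoc, ← Spec.map_comp, ← CommRingCat.ofHom_comp]
      rfl
    · show _ = Spec.map _
      rw [Category.assoc, fromSpecStalk_comp, ← Spec.map_comp, ← CommRingCat.ofHom_comp]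
      congr 2
      refine RingHom.ext fun a => Subtype.ext ?_
      exact RingHom.congr_fun (stalkHom_comp_stalkConst c z) a
    · show C.fromSpecStalk z (Spec.map (CommRingCat.ofHom φ) (IsLocalRing.closedPoint _)) = _
      have : Spec.map (CommRingCat.ofHom φ) (IsLocalRing.closedPoint P.toValuationSubring) =
          IsLocalRing.closedPoint (C.presheaf.stalk (z : C)) := IsLocalRing.comap_closedPoint φ
      rw [this, Scheme.fromSpecStalk_closedPoint]
  obtain ⟨L₁, h₁⟩ := key x rfl
  obtain ⟨L₂, h₂⟩ := key y hxy.symm
  have := IsSeparated.valuativeCriterion c (placeSq c P)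
  rw [Subsingleton.elim L₁ L₂] at h₁
  exact Subtype.ext (h₁.symm.trans h₂)

end Proper

end Fermat.Agent.Row24.Curve
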