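import Fermat.Agent.Row24.Curve.Cover
import Fermat.Agent.Row24.Dict.CurveCharts

/-!
# The chart rings of a pointed smooth proper curve

From a smooth proper integral curve with a rational point: the `CurveRings` of the standard cover,
the identification of these rings with sections (`ChartModel`), and the base point (`Based`).
-/

set_option autoImplicit false

universe u

noncomputable section

open CategoryTheory AlgebraicGeometry TopologicalSpace Opposite AlgebraicCurve
open NeronModelInfra AlgebraicGeometry.RelPicard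
open Fermat.Agent.FunctionFieldRR

namespace Fermat.Agent.Row24.Curve

variable {k : Type u} [Field k] [IsAlgClosed k] {C : Scheme.{u}}
  (c : C ⟶ Spec (CommRingCat.of k)) [IsIntegral C] [SmoothOfRelativeDimension 1 c] [IsProper c]

omit [IsAlgClosed k] in
/-- Transport of finiteness along a surjection of algebras. -/
theorem finite_aeval_of_surjective {A B : Type u} [CommRing A] [CommRing B] [Algebra k A]
    [Algebra k B] (φ : A →ₐ[k] B) (hφ : Function.Surjective φ) {a : A}
    (h : ((Polynomial.aeval (R := k) a).toRingHom).Finite) {b : B} (hb : φ a = b) :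
    ((Polynomial.aeval (R := k) b).toRingHom).Finite := by
  have : (Polynomial.aeval (R := k) b).toRingHom =
      φ.toRingHom.comp (Polynomial.aeval (R := k) a).toRingHom := by
    subst hb
    exact RingHom.ext fun p => Polynomial.aeval_algHom_apply φ a p
  rw [this]
  exact (RingHom.Finite.of_surjective _ hφ).comp h

/-- Transport of being a Dedekind domain along an isomorphism. -/
theorem isDedekindDomain_of_ringEquiv {A B : Type u} [CommRing A] [CommRing B] [IsDomain B]
    [IsDedekindDomain A] (e : A ≃+* B) : IsDedekindDomain B := by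
  let _ := e.toRingHom.toAlgebra
  have : IsLocalization (⊥ : Submonoid A) B :=
    { map_units := fun y => by
        rw [show (y : A) = 1 from Submonoid.mem_bot.1 y.2, map_one]
        exact isUnit_one
      surj := fun z => ⟨⟨e.symm z, 1⟩, by
        show z * e.toRingHom (1 : A) = e.toRingHom (e.symm z)
        simp⟩
      exists_of_eq := fun h => ⟨1, by rw [e.injective h]⟩ }
  exact IsLocalization.isDedekindDomain A (M := ⊥) bot_le B

omit [IsAlgClosed k] in
/-- A quotient `N / (M₁ + M₂)` of two finite modules over polynomial rings in inverse variables is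
finite dimensional. -/
theorem finite_quotient_sup {B : Type u} [CommRing B] [Algebra k B] (B1 B2 : Subalgebra k B)
    (x : B1) (y : B2) (hxy : (x : B) * y = 1)
    (hloc1 : ∀ z, ∃ n : ℕ, z * (x : B) ^ n ∈ B1) (hloc2 : ∀ z, ∃ n : ℕ, z * (y : B) ^ n ∈ B2)
    (hfin : ((Polynomial.aeval (R := k) x).toRingHom).Finite) :
    Module.Finite k (B ⧸ (Subalgebra.toSubmodule B1 ⊔ Subalgebra.toSubmodule B2)) := by
  classical
  set W := Subalgebra.toSubmodule B1 ⊔ Subalgebra.toSubmodule B2
  let _ : Algebra (Polynomial k) B1 := (Polynomial.aeval (R := k) x).toRingHom.toAlgebra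
  obtain ⟨G, hG⟩ := (hfin : Module.Finite (Polynomial k) B1).fg_top
  choose N hN using fun e : B1 => hloc2 (e : B)
  let M := G.sup N
  -- the finitely many remaining classes
  let S : Finset B := (G ×ˢ Finset.range M).image fun p => (p.1 : B) * (y : B) ^ p.2
  have key : ∀ (e : B1) (n : ℕ), e ∈ G →
      (e : B) * (y : B) ^ n ∈ W ⊔ Submodule.span k (S : Set B) := by
    intro e n he
    by_cases hn : n < M
    · exact Submodule.mem_sup_right (Submodule.subset_span (Finset.mem_image.2
        ⟨(e, n), Finset.mem_product.2 ⟨he, Finset.mem_range.2 hn⟩, rfl⟩))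
    · refine Submodule.mem_sup_left (Submodule.mem_sup_right ?_)
      have hle : N e ≤ n := (Finset.le_sup he).trans (not_lt.1 hn)
      rw [← Nat.add_sub_cancel' hle, pow_add, ← mul_assoc]
      exact (Subalgebra.mem_toSubmodule (S := B2)).2 (mul_mem (hN e) (pow_mem y.2 _))
  -- all powers of `x` times a generator
  have key2 : ∀ (e : B1) (i n : ℕ), e ∈ G →
      (x : B) ^ i * (e : B) * (y : B) ^ n ∈ W ⊔ Submodule.span k (S : Set B) := by
    intro e i n he
    rcases le_total n i with h | h
    · refine Submodule.mem_sup_left (Submodule.mem_sup_left ?_)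
      rw [← Nat.add_sub_cancel' h, pow_add]
      have : (x : B) ^ n * (x : B) ^ (i - n) * (e : B) * (y : B) ^ n =
          ((x : B) * (y : B)) ^ n * ((x : B) ^ (i - n) * (e : B)) := by ring
      rw [this, hxy, one_pow, one_mul]
      exact (Subalgebra.mem_toSubmodule (S := B1)).2 (mul_mem (pow_mem x.2 _) e.2)
    · rw [← Nat.add_sub_cancel' h, pow_add]
      have : (x : B) ^ i * (e : B) * ((y : B) ^ i * (y : B) ^ (n - i)) =
          ((x : B) * (y : B)) ^ i * ((e : B) * (y : B) ^ (n - i)) := by ring
      rw [this, hxy, one_pow, one_mul]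
      exact key e _ he
  have htop : W ⊔ Submodule.span k (S : Set B) = ⊤ := by
    refine eq_top_iff.2 fun z _ => ?_
    obtain ⟨n, hn⟩ := hloc1 z
    have hz : z = (⟨_, hn⟩ : B1) * (y : B) ^ n := by
      show z = z * (x : B) ^ n * (y : B) ^ n
      rw [mul_assoc, ← mul_pow, hxy, one_pow, mul_one]
    rw [hz]
    have hmem : (⟨_, hn⟩ : B1) ∈ Submodule.span (Polynomial k) (G : Set B1) :=
      hG ▸ Submodule.mem_top
    clear hz
    generalize (⟨_, hn⟩ : B1) = w at hmem ⊢
    induction hmem using Submodule.span_induction with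
    | mem e he => simpa using key2 e 0 n he
    | zero => simp
    | add u v _ _ hu hv =>
      rw [AddMemClass.coe_add, add_mul]
      exact add_mem hu hv
    | smul p u hu' ih =>
      clear ih
      induction hu' using Submodule.span_induction generalizing p with
      | mem e he =>
        induction p using Polynomial.induction_on' with
        | add p q hp hq =>
          rw [add_smul, AddMemClass.coe_add, add_mul]
          exact add_mem hp hq
        | monomial i a =>
          rw [Algebra.smul_def, RingHom.algebraMap_toAlgebra, AlgHom.toRingHom_eq_coe,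
            AlgHom.coe_toRingHom, Polynomial.aeval_monomial]
          have : ((algebraMap k B1 a * x ^ i * e : B1) : B) * (y : B) ^ n =
              a • ((x : B) ^ i * (e : B) * (y : B) ^ n) := by
            rw [Algebra.smul_def]
            push_cast
            ring
          rw [this]
          exact Submodule.smul_mem _ _ (key2 e i n he)
      | zero => simp
      | add u v _ _ hu hv =>
        rw [smul_add, AddMemClass.coe_add, add_mul]
        exact add_mem (hu p) (hv p)
      | smul q u _ hu => rw [smul_smul]; exact hu _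
  have hspan : Submodule.span k (W.mkQ '' (S : Set B)) = ⊤ := by
    rw [← Submodule.map_span, eq_top_iff]
    intro q _
    obtain ⟨z, rfl⟩ := W.mkQ_surjective q
    obtain ⟨w, hw, s, hs, rfl⟩ := Submodule.mem_sup.1 (htop ▸ Submodule.mem_top : z ∈ _)
    exact ⟨s, hs, by rw [map_add, (Submodule.Quotient.mk_eq_zero W).2 hw |> fun h =>
      show W.mkQ w = 0 from h, zero_add]⟩
  exact ⟨⟨S.image W.mkQ, by rw [Finset.coe_image]; exact hspan⟩⟩

section BasePoint

variable (ε : SchemeHomOver (𝟙 (Spec (CommRingCat.of k))) c)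

include c in
omit [IsAlgClosed k] [AlgebraicGeometry.IsIntegral C] [SmoothOfRelativeDimension 1 c] in
theorem closedImmersion_basePoint : IsClosedImmersion ε.1 := by
  have : IsClosedImmersion (ε.1 ≫ c) := by rw [ε.2]; infer_instance
  exact IsClosedImmersion.of_comp ε.1 c

/-- The image of the rational point, a closed point. -/
def basePoint : CPoint C :=
  ⟨ε.1 (IsLocalRing.closedPoint k), (isClosed_singleton_iff c).1 (by
    have := closedImmersion_basePoint c ε
    have h := ε.1.isClosedEmbedding.isClosedMap.isClosed_range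
    have hr : Set.range ε.1 = {ε.1 (IsLocalRing.closedPoint k)} := by
      ext y
      constructor
      · rintro ⟨p, rfl⟩
        have : Subsingleton (PrimeSpectrum k) := inferInstance
        exact congrArg ε.1 (Subsingleton.elim (α := PrimeSpectrum k) _ _)
      · rintro rfl
        exact ⟨_, rfl⟩
    rwa [hr] at h)⟩

theorem preimage_eq_top {U : C.Opens} (h : (basePoint c ε : C) ∈ U) : ε.1 ⁻¹ᵁ U = ⊤ := by
  refine top_unique fun p _ => ?_
  have : Subsingleton (PrimeSpectrum k) := inferInstance
  rw [Subsingleton.elim (α := PrimeSpectrum k) p (IsLocalRing.closedPoint k)]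
  exact h

/-- Evaluation at the base point. -/
def evalAt {U : C.Opens} (h : (basePoint c ε : C) ∈ U) : Sec c U →ₐ[k] k :=
  { ((ε.1.appLE U ⊤ (preimage_eq_top c ε h).ge) ≫
      (Scheme.ΓSpecIso (CommRingCat.of k)).hom).hom with
    commutes' := fun r => by
      show ((c.appLE ⊤ U le_top ≫ ε.1.appLE U ⊤ _) ≫
        (Scheme.ΓSpecIso (CommRingCat.of k)).hom)
          ((Scheme.ΓSpecIso (CommRingCat.of k)).inv r) = r
      rw [Scheme.Hom.appLE_comp_appLE]
      have hid : ∀ (g : Spec (CommRingCat.of k) ⟶ Spec (CommRingCat.of k)), g = 𝟙 _ →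
          ∀ h, g.appLE ⊤ ⊤ h = 𝟙 _ := by
        rintro g rfl h
        rw [Scheme.Hom.appLE, Scheme.Hom.id_app]
        exact (Category.id_comp _).trans ((Spec (CommRingCat.of k)).presheaf.map_id _)
      rw [hid (ε.1 ≫ c) ε.2, Category.id_comp, ← CommRingCat.comp_apply, Iso.inv_hom_id,
        CommRingCat.id_apply] }

theorem evalAt_ne_zero_iff {U : C.Opens} (h : (basePoint c ε : C) ∈ U) (a : Sec c U) :
    evalAt c ε h a ≠ 0 ↔ (basePoint c ε : C) ∈ C.basicOpen (U := U) a := by
  have hb := Scheme.basicOpen_appLE (f := ε.1) ⊤ U (preimage_eq_top c ε h).ge a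
  have hiff : (basePoint c ε : C) ∈ C.basicOpen (U := U) a ↔
      IsLocalRing.closedPoint k ∈ (Spec (CommRingCat.of k)).basicOpen
        (ε.1.appLE U ⊤ (preimage_eq_top c ε h).ge a) := by
    rw [hb]
    exact ⟨fun h' => ⟨trivial, h'⟩, fun h' => h'.2⟩
  rw [hiff, basicOpen_eq_of_affine']
  show evalAt c ε h a ≠ 0 ↔ evalAt c ε h a ∉ (IsLocalRing.closedPoint k).asIdeal
  rw [show (IsLocalRing.closedPoint k).asIdeal = ⊥ from IsLocalRing.maximalIdeal_eq_bot,
    Ideal.mem_bot]

end BasePoint

namespace Cover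

variable {c} {O : CPoint C} (D : Cover c O)

/-- Sections over the overlap. -/
abbrev B12 : Type u := Sec c (D.U1 ⊓ D.U2)

/-- Restriction from the first chart. -/
abbrev res1 : Sec c D.U1 →ₐ[k] D.B12 := resAlg c inf_le_left

/-- Restriction from the second chart. -/
abbrev res2 : Sec c D.U2 →ₐ[k] D.B12 := resAlg c inf_le_right

/-- The first chart, inside the overlap. -/
def equiv1 : Sec c D.U1 ≃ₐ[k] D.res1.range :=
  AlgEquiv.ofInjective _ (resAlg_injective c _)

/-- The second chart, inside the overlap. -/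
def equiv2 : Sec c D.U2 ≃ₐ[k] D.res2.range :=
  AlgEquiv.ofInjective _ (resAlg_injective c _)

omit [IsProper c] in
theorem x_mul_y : D.res1 D.x * D.res2 D.y = 1 := by
  refine secFF_injective c _ ?_
  rw [map_mul, map_one, secFF_resAlg, secFF_resAlg, D.secFF_x, D.secFF_y,
    mul_inv_cancel₀ D.f_ne]

theorem finite_h1 : Module.Finite k
    (D.B12 ⧸ (Subalgebra.toSubmodule D.res1.range ⊔ Subalgebra.toSubmodule D.res2.range)) := by
  refine finite_quotient_sup D.res1.range D.res2.range ⟨_, D.x, rfl⟩ ⟨_, D.y, rfl⟩ D.x_mul_y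
    (fun z => ?_) (fun z => ?_) ?_
  · obtain ⟨n, a, ha⟩ := D.exists_loc1 z
    exact ⟨n, a, ha.symm⟩
  · obtain ⟨n, a, ha⟩ := D.exists_loc2 z
    exact ⟨n, a, ha.symm⟩
  · exact finite_aeval_of_surjective D.equiv1.toAlgHom D.equiv1.surjective D.finite1 rfl

omit [IsProper c] in
theorem isDedekind1 : IsDedekindDomain D.res1.range :=
  have := isDedekindDomain_sec c D.isAffine1
  isDedekindDomain_of_ringEquiv D.equiv1.toRingEquiv

omit [IsProper c] in
theorem isDedekind2 : IsDedekindDomain D.res2.range :=
  have := isDedekindDomain_sec c D.isAffine2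
  isDedekindDomain_of_ringEquiv D.equiv2.toRingEquiv

theorem inf_eq : D.res1.range ⊓ D.res2.range = ⊥ := by
  refine eq_bot_iff.2 fun z hz => ?_
  obtain ⟨⟨a, rfl⟩, ⟨b, hb⟩⟩ := hz
  obtain ⟨r, rfl⟩ := D.eq_const_of_res_eq hb.symm
  rw [Algebra.mem_bot]
  exact ⟨r, (AlgHom.commutes D.res1 r).symm⟩

variable {ε : SchemeHomOver (𝟙 (Spec (CommRingCat.of k))) c} (D' : Cover c (basePoint c ε))

theorem aug_y : evalAt c ε D'.mem_U2 D'.y = 0 := by
  by_contra h
  have := (evalAt_ne_zero_iff c ε D'.mem_U2 D'.y).1 h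
  rw [D'.basic2] at this
  exact D'.not_mem_U1 this.1

theorem exists_pow_ker_le : ∃ d : ℕ,
    RingHom.ker (evalAt c ε D'.mem_U2) ^ d ≤ Ideal.span {D'.y} := by
  have := isDedekindDomain_sec c D'.isAffine2
  have hfg : (Ideal.span {D'.y}).radical.FG := IsNoetherian.noetherian _
  obtain ⟨d, hd⟩ := Ideal.exists_radical_pow_le_of_fg _ hfg
  refine ⟨d, le_trans (Ideal.pow_right_mono ?_ d) hd⟩
  intro b hb
  rw [Ideal.radical_eq_sInf, Submodule.mem_sInf]
  rintro P ⟨hP, hPp⟩
  by_contra hbP
  let p : PrimeSpectrum Γ(C, D'.U2) := ⟨P, hPp⟩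
  have hmem : ∀ a : Γ(C, D'.U2), D'.isAffine2.fromSpec p ∈ C.basicOpen a ↔ a ∉ P := fun a => by
    have := SetLike.ext_iff.1 (D'.isAffine2.fromSpec_preimage_basicOpen a) p
    exact this
  have hb' := (hmem b).2 hbP
  have hU : D'.isAffine2.fromSpec p ∈ D'.U2 := C.basicOpen_le (U := D'.U2) b hb'
  have hy : D'.y ∈ P := hP (Ideal.mem_span_singleton_self _)
  have hnot : D'.isAffine2.fromSpec p ∉ D'.U1 := fun h1 =>
    (hmem D'.y).1 (D'.basic2.symm ▸ ⟨h1, hU⟩) hy
  by_cases hη : D'.isAffine2.fromSpec p = genericPoint C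
  · exact hnot (hη ▸ genericPoint_mem)
  · have heq : (⟨_, hη⟩ : CPoint C) = basePoint c ε := by
      by_contra hne
      exact hnot ((D'.mem_U1 ⟨_, hη⟩).2 hne)
    have hO : D'.isAffine2.fromSpec p = (basePoint c ε : C) := congrArg Subtype.val heq
    rw [hO] at hb'
    exact (evalAt_ne_zero_iff c ε D'.mem_U2 b).2 hb' hb

/-- The chart rings of the cover. -/
def curveRings : Chart.CurveRings k where
  B12 := D'.B12
  B1 := D'.res1.range
  B2 := D'.res2.range
  x := D'.res1 D'.x
  y := D'.res2 D'.y
  x_mem := ⟨D'.x, rfl⟩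
  y_mem := ⟨D'.y, rfl⟩
  x_mul_y := D'.x_mul_y
  loc1 z := by
    obtain ⟨n, a, ha⟩ := D'.exists_loc1 z
    exact ⟨n, a, ha.symm⟩
  loc2 z := by
    obtain ⟨n, a, ha⟩ := D'.exists_loc2 z
    exact ⟨n, a, ha.symm⟩
  isDedekind1 := D'.isDedekind1
  isDedekind2 := D'.isDedekind2
  finite1 := finite_aeval_of_surjective D'.equiv1.toAlgHom D'.equiv1.surjective D'.finite1 rfl
  finite2 := finite_aeval_of_surjective D'.equiv2.toAlgHom D'.equiv2.surjective D'.finite2 rfl
  inf_eq := D'.inf_eq
  aug := (evalAt c ε D'.mem_U2).comp D'.equiv2.symm.toAlgHom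
  aug_y := (congrArg (evalAt c ε D'.mem_U2) (D'.equiv2.symm_apply_apply D'.y)).trans D'.aug_y
  exists_pow_ker_aug_le := by
    obtain ⟨d, hd⟩ := D'.exists_pow_ker_le
    refine ⟨d, ?_⟩
    have h := Ideal.map_mono (f := D'.equiv2.toAlgHom.toRingHom) hd
    rw [Ideal.map_pow, Ideal.map_span, Set.image_singleton] at h
    refine le_trans (Ideal.pow_right_mono ?_ d) h
    intro z hz
    exact Ideal.mem_map_of_mem D'.equiv2.toAlgHom.toRingHom (x := D'.equiv2.symm z) hz
      |> fun hm => by simpa using hm
  g := Module.finrank k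
    (D'.B12 ⧸ (Subalgebra.toSubmodule D'.res1.range ⊔ Subalgebra.toSubmodule D'.res2.range))
  h1Equiv := haveI := D'.finite_h1; (Module.finBasis k _).equivFun

/-- The chart rings as sections. -/
def chartModel : Dict.ChartModel c D'.curveRings where
  U1 := D'.U1
  U2 := D'.U2
  isAffine1 := D'.isAffine1
  isAffine2 := D'.isAffine2
  sup_eq := D'.sup_eq
  hom := RingHom.id D'.B12
  hom1 := D'.equiv1.symm.toAlgHom.toRingHom
  hom2 := D'.equiv2.symm.toAlgHom.toRingHom
  bijective := Function.bijective_id
  bijective1 := D'.equiv1.symm.bijective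
  bijective2 := D'.equiv2.symm.bijective
  const _ := rfl
  const1 a := D'.equiv1.symm.commutes a
  const2 a := D'.equiv2.symm.commutes a
  res1 b := congrArg Subtype.val (D'.equiv1.apply_symm_apply b)
  res2 b := congrArg Subtype.val (D'.equiv2.apply_symm_apply b)
  basic1 := by
    have h : D'.equiv1.symm ⟨D'.res1 D'.x, ⟨D'.x, rfl⟩⟩ = D'.x := D'.equiv1.symm_apply_apply D'.x
    exact (congrArg (fun a : Sec c D'.U1 => C.basicOpen (U := D'.U1) a) h).trans D'.basic1
  basic2 := by
    have h : D'.equiv2.symm ⟨D'.res2 D'.y, ⟨D'.y, rfl⟩⟩ = D'.y := D'.equiv2.symm_apply_apply D'.y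
    exact (congrArg (fun a : Sec c D'.U2 => C.basicOpen (U := D'.U2) a) h).trans D'.basic2

theorem based : D'.chartModel.Based ε where
  preimage := preimage_eq_top c ε D'.mem_U2
  aug b := by
    show _ = (Scheme.ΓSpecIso (CommRingCat.of k)).inv
      ((Scheme.ΓSpecIso (CommRingCat.of k)).hom (ε.1.appLE D'.U2 ⊤ _ (D'.equiv2.symm b)))
    rw [← CommRingCat.comp_apply (Scheme.ΓSpecIso (CommRingCat.of k)).hom, Iso.hom_inv_id,
      CommRingCat.id_apply]
    rfl

end Cover

/-- **The chart rings of a pointed curve exist.** -/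
theorem exists_chartModel (ε : SchemeHomOver (𝟙 (Spec (CommRingCat.of k))) c) :
    ∃ (R : Chart.CurveRings k) (m : Dict.ChartModel c R), m.Based ε := by
  obtain ⟨D⟩ := nonempty_cover c (basePoint c ε)
  exact ⟨D.curveRings, D.chartModel, D.based⟩

end Fermat.Agent.Row24.Curve
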