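import Fermat.Agent.Row24.Curve.Affine
import Mathlib.RingTheory.DedekindDomain.Dvr

/-!
# The rings of sections of a smooth proper curve over open sets, as algebras

`Sec c U` is `Γ(C, U)` with its algebra structure over the constants. Over an affine open set it is
a Dedekind domain, finite over the algebra generated by any section whose poles are all the closed
points outside.
-/

set_option autoImplicit false

universe u

noncomputable section

open CategoryTheory AlgebraicGeometry TopologicalSpace Opposite AlgebraicCurve
open Fermat.Agent.FunctionFieldRR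

namespace Fermat.Agent.Row24.Curve

variable {k : Type u} [Field k] {C : Scheme.{u}} (c : C ⟶ Spec (CommRingCat.of k))

/-- Sections over `U`, as an algebra over the constants. -/
@[nolint unusedArguments]
def Sec {k : Type u} [Field k] {C : Scheme.{u}} (_c : C ⟶ Spec (CommRingCat.of k))
    (U : C.Opens) : Type u :=
  Γ(C, U)

instance (U : C.Opens) : CommRing (Sec c U) := inferInstanceAs (CommRing Γ(C, U))

instance (U : C.Opens) : Algebra k (Sec c U) := (constHom c U).toAlgebra

/-- Restriction of sections, as a map of algebras. -/
def resAlg {U V : C.Opens} (h : V ≤ U) : Sec c U →ₐ[k] Sec c V :=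
  { (C.presheaf.map (homOfLE h).op).hom with
    commutes' := map_constHom c h }

section Integral

variable [IsIntegral C]

instance (U : C.Opens) [Nonempty U] : IsDomain (Sec c U) := inferInstanceAs (IsDomain Γ(C, U))

/-- A section as a rational function, as a map of algebras. -/
def secFF (U : C.Opens) [Nonempty U] : Sec c U →ₐ[k] FF c :=
  { toFF c U with commutes' := toFF_constHom c U }

theorem secFF_apply (U : C.Opens) [Nonempty U] (a : Sec c U) : secFF c U a = toFF c U a :=
  rfl

theorem secFF_injective (U : C.Opens) [Nonempty U] : Function.Injective (secFF c U) :=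
  toFF_injective c U

theorem secFF_resAlg {U V : C.Opens} [Nonempty U] [Nonempty V] (h : V ≤ U) (a : Sec c U) :
    secFF c V (resAlg c h a) = secFF c U a :=
  toFF_map c h a

theorem resAlg_injective {U V : C.Opens} [Nonempty U] [Nonempty V] (h : V ≤ U) :
    Function.Injective (resAlg c h) := fun a b hab =>
  secFF_injective c U (by rw [← secFF_resAlg c h, hab, secFF_resAlg])

end Integral

variable [IsAlgClosed k] [IsIntegral C] [SmoothOfRelativeDimension 1 c]

omit [IsAlgClosed k] [AlgebraicGeometry.IsIntegral C] in
theorem finiteType_sec {U : C.Opens} (hU : IsAffineOpen U) : Algebra.FiniteType k (Sec c U) :=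
  finiteType_constHom c hU

/-- Transfer of the discrete valuation ring property to the localization. -/
theorem isDiscreteValuationRing_localization {A : Type u} [CommRing A] [IsDomain A] (S : Type u)
    [CommRing S] [IsDomain S] [Algebra A S] (P : Ideal A) [P.IsPrime]
    [IsLocalization.AtPrime S P] [IsDiscreteValuationRing S] :
    IsDiscreteValuationRing (Localization.AtPrime P) :=
  IsDiscreteValuationRing.RingEquivClass.isDiscreteValuationRing
    (IsLocalization.algEquiv P.primeCompl S (Localization.AtPrime P)).toRingEquiv

/-- The sections over an affine open set form a Dedekind domain. -/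
theorem isDedekindDomain_sec {U : C.Opens} [Nonempty U] (hU : IsAffineOpen U) :
    IsDedekindDomain (Sec c U) := by
  have : Algebra.FiniteType k (Sec c U) := finiteType_sec c hU
  have : IsNoetherianRing (Sec c U) := Algebra.FiniteType.isNoetherianRing k _
  have : IsDedekindDomainDvr (Sec c U) :=
    { is_dvr_at_nonzero_prime := fun P hP hPp => by
        change Ideal Γ(C, U) at P
        have hPp' : P.IsPrime := hPp
        let p : PrimeSpectrum Γ(C, U) := ⟨P, hPp⟩
        have hmem : hU.fromSpec p ∈ U := hU.range_fromSpec.subset (Set.mem_range_self _)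
        have hprime : hU.primeIdealOf ⟨hU.fromSpec p, hmem⟩ = p :=
          hU.fromSpec.injective (hU.fromSpec_primeIdealOf _)
        have hx : hU.fromSpec p ≠ genericPoint C := fun h => hP (by
          have h0 := (primeIdealOf_eq_bot_iff hU ⟨_, hmem⟩).2 h
          rw [hprime] at h0
          exact h0)
        have := isDiscreteValuationRing_stalk c hx
        let _ := TopCat.Presheaf.algebra_section_stalk C.presheaf (⟨hU.fromSpec p, hmem⟩ : U)
        have : IsLocalization.AtPrime (C.presheaf.stalk (hU.fromSpec p)) P :=
          hU.isLocalization_stalk' p hmem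
        exact isDiscreteValuationRing_localization (A := Γ(C, U))
          (C.presheaf.stalk (hU.fromSpec p)) P }
  exact IsDedekindDomainDvr.isDedekindDomain (Sec c U)

variable [IsProper c]

/-- Sections are integral over the algebra generated by a function whose poles are exactly the
points outside. -/
theorem isIntegral_sec {U : C.Opens} [Nonempty U] (f : Sec c U)
    (hf : ∀ v : CPoint C, (v : C) ∉ U → (pointPlace c v).ord (secFF c U f) < 0) :
    ((Polynomial.aeval (R := k) f).toRingHom).IsIntegral := by
  intro a
  let A : Subalgebra k (FF c) := Algebra.adjoin k {secFF c U f}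
  have hmem : secFF c U a ∈ (integralClosure (Subring.closure (A : Set (FF c))) (FF c)).toSubring := by
    rw [← iInf_valuationSubring_superset]
    rw [Subring.mem_iInf]
    rintro ⟨V, hV⟩
    by_cases htop : V = ⊤
    · subst htop
      exact ValuationSubring.mem_top _
    · have hK : ∀ r : k, algebraMap k (FF c) r ∈ V := fun r => hV (A.algebraMap_mem r)
      obtain ⟨v, hv⟩ := exists_pointPlace_eq c (placeOfValuationSubring V hK htop)
      have hiff : ∀ g, g ∈ (pointPlace c v).toValuationSubring ↔ g ∈ V := fun g => by
        rw [hv]; rfl
      have hvU : (v : C) ∈ U := by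
        by_contra hvU
        exact (hf v hvU).not_ge ((ord_nonneg_iff _ _).2
          ((hiff _).2 (hV (Algebra.self_mem_adjoin_singleton k _))))
      exact (hiff _).1 (toFF_mem_pointPlace c hvU a)
  obtain ⟨p, hp, hpe⟩ := hmem
  -- lift the coefficients to polynomials in `f`
  let ev : Polynomial k →+* FF c := (Polynomial.aeval (R := k) (secFF c U f)).toRingHom
  have hrange : ∀ z : Subring.closure (A : Set (FF c)), (z : FF c) ∈ ev.range := fun z => by
    have hz : (z : FF c) ∈ A.toSubring := Subring.closure_le.2 subset_rfl z.2
    exact (SetLike.ext_iff.1 (Algebra.adjoin_singleton_eq_range_aeval k (secFF c U f)) _).1 hz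
  have hlifts : p.map (Subring.closure (A : Set (FF c))).subtype ∈ Polynomial.lifts ev := by
    rw [Polynomial.lifts_iff_coeff_lifts]
    intro i
    rw [Polynomial.coeff_map]
    exact RingHom.mem_range.1 (hrange _)
  obtain ⟨q, hq, -, hqm⟩ :=
    Polynomial.lifts_and_degree_eq_and_monic hlifts (hp.map _)
  refine ⟨q, hqm, secFF_injective c U ?_⟩
  have hcomp : (secFF c U).toRingHom.comp (Polynomial.aeval (R := k) f).toRingHom = ev :=
    RingHom.ext fun r => (Polynomial.aeval_algHom_apply (secFF c U) f r).symm
  rw [map_zero, show secFF c U _ = (secFF c U).toRingHom _ from rfl, Polynomial.hom_eval₂, hcomp,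
    ← Polynomial.eval_map, hq, Polynomial.eval_map]
  exact hpe

/-- Sections over an affine open set are finite over `k[f]`. -/
theorem finite_sec {U : C.Opens} [Nonempty U] (hU : IsAffineOpen U) (f : Sec c U)
    (hf : ∀ v : CPoint C, (v : C) ∉ U → (pointPlace c v).ord (secFF c U f) < 0) :
    ((Polynomial.aeval (R := k) f).toRingHom).Finite := by
  refine RingHom.finite_iff_isIntegral_and_finiteType.2 ⟨isIntegral_sec c f hf, ?_⟩
  refine RingHom.FiniteType.of_comp_finiteType (f := Polynomial.C) ?_
  rw [show (Polynomial.aeval (R := k) f).toRingHom.comp Polynomial.C = algebraMap k (Sec c U) from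
    RingHom.ext fun r => Polynomial.aeval_C f r]
  exact RingHom.finiteType_algebraMap.2 (finiteType_sec c hU)

end Fermat.Agent.Row24.Curve
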